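import Mathlib
import Fermat.Prelude.Def_JacJ1Iface

/-!
# Abelian varieties over algebraically closed fields: basic carriers
-/

set_option autoImplicit false

universe u

noncomputable section

open CategoryTheory CategoryTheory.Limits AlgebraicGeometry NeronModelInfra GoodReductionJacobian

namespace Fermat.Agent.AbVar

/-- A smooth proper integral commutative group scheme over a field. -/
structure AV (K : Type u) [Field K] where
  /-- the scheme -/
  A : Scheme.{u}
  /-- its structure morphism -/
  f : A ⟶ Spec (CommRingCat.of K)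
  /-- the group law -/
  G : RelativeGroupLaw K f
  comm : G.IsCommutative
  [smooth : Smooth f]
  [proper : IsProper f]
  [integral : IsIntegral A]

attribute [instance] AV.smooth AV.proper AV.integral

variable {K : Type u} [Field K]

/-- The morphism of spectra of a field extension. -/
abbrev specK (K : Type u) [Field K] (k' : Type u) [Field k'] [Algebra K k'] :
    Spec (CommRingCat.of k') ⟶ Spec (CommRingCat.of K) :=
  Spec.map (CommRingCat.ofHom (algebraMap K k'))

namespace AV

variable (V : AV K)

/-- The points with values in a scheme over `K`, written additively. -/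
def Pt {T : Scheme.{u}} (t : T ⟶ Spec (CommRingCat.of K)) : Type u := SchemeHomOver t V.f

variable {V} {T : Scheme.{u}} {t : T ⟶ Spec (CommRingCat.of K)}

/-- The underlying morphism. -/
def Pt.hom (x : V.Pt t) : T ⟶ V.A := x.1

@[simp]
theorem Pt.hom_over (x : V.Pt t) : x.hom ≫ V.f = t := x.2

/-- A point is determined by its underlying morphism. -/
@[ext]
theorem Pt.ext {x y : V.Pt t} (h : x.hom = y.hom) : x = y := Subtype.ext h

instance instAddCommGroupPt : AddCommGroup (V.Pt t) where
  add x y := V.G.mul t x y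
  zero := V.G.one t
  neg x := V.G.inv t x
  add_assoc := V.G.mul_assoc t
  zero_add := V.G.one_mul t
  add_zero := V.G.mul_one t
  neg_add_cancel := V.G.inv_mul_cancel t
  add_comm := V.comm t
  nsmul := @nsmulRec _ ⟨V.G.one t⟩ ⟨fun x y => V.G.mul t x y⟩
  zsmul := @zsmulRec _ ⟨V.G.one t⟩ ⟨fun x y => V.G.mul t x y⟩ ⟨fun x => V.G.inv t x⟩
    (@nsmulRec _ ⟨V.G.one t⟩ ⟨fun x y => V.G.mul t x y⟩)

/-- The pull-back of a point along a morphism over `K`. -/
def Pt.comap {T' : Scheme.{u}} (t' : T' ⟶ Spec (CommRingCat.of K)) (ψ : T' ⟶ T) (hψ : ψ ≫ t = t')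
    (x : V.Pt t) : V.Pt t' :=
  schemeHomOverComp ψ hψ x

@[simp]
theorem Pt.comap_hom {T' : Scheme.{u}} (t' : T' ⟶ Spec (CommRingCat.of K)) (ψ : T' ⟶ T)
    (hψ : ψ ≫ t = t') (x : V.Pt t) : (x.comap t' ψ hψ).hom = ψ ≫ x.hom := rfl

/-- Restriction of points along a morphism is additive. -/
theorem Pt.comap_add {T' : Scheme.{u}} (t' : T' ⟶ Spec (CommRingCat.of K)) (ψ : T' ⟶ T)
    (hψ : ψ ≫ t = t') (x y : V.Pt t) : (x + y).comap t' ψ hψ = x.comap t' ψ hψ + y.comap t' ψ hψ :=
  V.G.mul_natural t t' ψ hψ x y

/-- Restriction of points along a morphism preserves zero. -/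
theorem Pt.comap_zero {T' : Scheme.{u}} (t' : T' ⟶ Spec (CommRingCat.of K)) (ψ : T' ⟶ T)
    (hψ : ψ ≫ t = t') :
    (0 : V.Pt t).comap t' ψ hψ = 0 :=
  V.G.one_natural t t' ψ hψ

variable (V)

/-- The identity as a point. -/
def idPt : V.Pt V.f := ⟨𝟙 V.A, Category.id_comp _⟩

/-- Multiplication by an integer. -/
def mulBy (n : ℤ) : V.A ⟶ V.A := (n • V.idPt).hom

/-- Multiplication by an integer is a morphism over the base. -/
theorem mulBy_over (n : ℤ) : V.mulBy n ≫ V.f = V.f := (n • V.idPt).hom_over

/-- The structure morphism of the square. -/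
abbrev sqStr : pullback V.f V.f ⟶ Spec (CommRingCat.of K) := pullback.fst V.f V.f ≫ V.f

/-- The first projection of the square, as a point. -/
def pr₁ : V.Pt V.sqStr := ⟨pullback.fst V.f V.f, rfl⟩

/-- The second projection of the square, as a point. -/
def pr₂ : V.Pt V.sqStr := ⟨pullback.snd V.f V.f, pullback.condition.symm⟩

/-- The rational points. -/
abbrev K_Points : Type u := V.Pt (𝟙 (Spec (CommRingCat.of K)))

end AV

end Fermat.Agent.AbVar

end
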