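import Fermat.Agent.AbVar.Count.Centre
import Fermat.Agent.AbVar.Count.Growth
import Fermat.Agent.AbVar.Count.Pullback
import Fermat.Agent.AbVar.Count.Sandwich

/-!
# The degree of an endomorphism which multiplies an ample class by `N`

Let `D` be a divisor with non-empty affine complement on a proper normal variety of dimension `g`
over an algebraically closed field. There are constants `0 < c` and `C` such that every finite
separable endomorphism `ν` over the field with `ν^*D ~ N D`, `N > 0`, has degree between `c * N ^ g`
and `C * N ^ g` (`degree_bounds`).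
-/

set_option autoImplicit false

universe u

noncomputable section

open CategoryTheory AlgebraicGeometry

namespace Fermat.Agent.AbVar

/-- If `ν` pulls a divisor with affine complement back to `N` times itself, its degree is about
`N ^ g`. -/
theorem degree_bounds {K : Type u} [Field K] [IsAlgClosed K] {X : Scheme.{u}} [IsIntegral X]
    (f : X ⟶ Spec (CommRingCat.of K)) [IsProper f] (g : ℕ)
    (htr : letI := ffAlgebra f; Algebra.trdeg K X.functionField = g)
    (hnormal : ∀ x : X, IsIntegrallyClosed (X.presheaf.stalk x))
    (D : DivData X) (U : X.Opens) (hU : IsAffineOpen U) (hne : (U : Set X).Nonempty)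
    (hD : D.IsComplement U) :
    ∃ c C : ℝ, 0 < c ∧ ∀ (ν : X ⟶ X) [IsDominant ν], ν ≫ f = f → IsFinite ν →
      FiniteDimensional (ffMap ν).fieldRange X.functionField →
      Algebra.IsSeparable (ffMap ν).fieldRange X.functionField → ∀ N : ℕ, 0 < N →
      (D.comap ν).LinEquivPow D N →
        c * (N : ℝ) ^ g ≤ Module.finrank (ffMap ν).fieldRange X.functionField ∧
          (Module.finrank (ffMap ν).fieldRange X.functionField : ℝ) ≤ C * (N : ℝ) ^ g := by
  let := ffAlgebra f
  have : CompactSpace X := QuasiCompact.compactSpace_of_compactSpace f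
  -- Filter the functions regular on `U` by the pole order along `D`; the growth is `m ^ g`.
  let A := Growth.regularAlgebra f U
  have : Algebra.FiniteType K A := Growth.finiteType_regularAlgebra f hU hne
  have hV : Growth.PoleFiltration A (Growth.secs f D) :=
    { le := fun _ _ hφ => Growth.secs_le f hD hφ
      exhaust := fun _ hφ => Growth.exists_mem_secs f hD hφ
      one_mem := Growth.one_mem_secs f D
      mul_mem := fun hφ hψ => Growth.mul_mem_secs f hφ hψ
      mono := Growth.secs_mono f hD
      bound := Growth.exists_bound f hD }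
  have hfrac := Growth.exists_div_regularAlgebra f hU hne
  obtain ⟨C, hC⟩ := Growth.exists_finrank_le hV hfrac htr
  obtain ⟨M, hM⟩ := Growth.exists_le_finrank hV hfrac htr fun m => (hC m).1
  refine ⟨1 / (((C + 1) * (M + 1) ^ g : ℕ) : ℝ), ((C * (M + 2) ^ g : ℕ) : ℝ), by positivity,
    fun ν _ hν hfinite hfd hsep N hN hlin => ?_⟩
  -- The preimage of `U` is the affine complement of `ν ^* D`, so its sections give all functions.
  have hne' : ((ν ⁻¹ᵁ U : X.Opens) : Set X).Nonempty := ⟨genericPoint X, by
    change ν.base (genericPoint X) ∈ U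
    rw [genericPoint_of_isDominant]
    exact Growth.genericPoint_mem hne.some_mem⟩
  have hD' := hD.comap ν
  have hquot : ∀ φ : X.functionField, ∃ m, ∃ a ∈ Growth.secs f (D.comap ν) m,
      ∃ b ∈ Growth.secs f (D.comap ν) m, b ≠ 0 ∧ φ = a / b := fun φ => by
    obtain ⟨a, ha, b, hb, hb0, rfl⟩ := Growth.exists_div_regularAlgebra f (hU.preimage ν) hne' φ
    obtain ⟨m, hm⟩ := Growth.exists_mem_secs f hD' ha
    obtain ⟨n, hn⟩ := Growth.exists_mem_secs f hD' hb
    exact ⟨max m n, a, Growth.secs_mono f hD' (le_max_left m n) hm, b,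
      Growth.secs_mono f hD' (le_max_right m n) hn, hb0, rfl⟩
  -- Compare `L(m ν^* D) = L(N m D)` with `L(m D)` along the extension, using traces to go down.
  let σ := Growth.ffAlgHom f ν hν
  have : FiniteDimensional σ.toRingHom.fieldRange X.functionField := hfd
  have : Algebra.IsSeparable σ.toRingHom.fieldRange X.functionField := hsep
  obtain ⟨h1, h2⟩ := Growth.degree_sandwich σ (fun m => (hC m).1) (fun m => (hC m).2) hM hN
    (fun m => Growth.nonempty_secs_equiv f hlin m) (Growth.one_mem_secs f (D.comap ν))
    (fun hφ => Growth.map_mem_secs_comap f ν hφ) (fun hφ hψ => Growth.mul_mem_secs f hφ hψ)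
    (Growth.secs_mono f hD') hquot fun hφ => by
      obtain ⟨t, ht, e⟩ := Growth.trace_mem_map_secs f ν hnormal hφ
      exact ⟨t, ht, e⟩
  change _ ≤ (Module.finrank σ.toRingHom.fieldRange X.functionField : ℝ) ∧
    (Module.finrank σ.toRingHom.fieldRange X.functionField : ℝ) ≤ _
  refine ⟨?_, by exact_mod_cast h1⟩
  rw [div_mul_eq_mul_div, one_mul, div_le_iff₀ (by positivity)]
  have h3 := h2.trans (Nat.mul_le_mul_left _ (Nat.mul_le_mul_right _ (Nat.le_succ C)))
  exact_mod_cast h3

end Fermat.Agent.AbVar

end
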