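import Fermat.Agent.AbVar.Rational
import Fermat.Agent.AbVar.Group.Alg
import Fermat.Agent.Jac.Scheme.CoverAlg

/-!
# Translations, integrality and the transcendence degree of an abelian variety

The main theorems are `AV.geometricallyIntegral`, `AV.trdeg_functionField` and
`AV.exists_translate_mem`.
-/

set_option autoImplicit false

universe u

noncomputable section

open CategoryTheory CategoryTheory.Limits AlgebraicGeometry NeronModelInfra GoodReductionJacobian

namespace Fermat.Agent.AbVar

variable {K : Type u} [Field K]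

/-! ### Sections and smoothness -/

section Sections

variable {X : Scheme.{u}} (f : X ⟶ Spec (CommRingCat.of K))

/-- The functions on an open as an algebra over the base field. -/
def sectionsHom (U : X.Opens) : CommRingCat.of K ⟶ Γ(X, U) :=
  (Scheme.ΓSpecIso (CommRingCat.of K)).inv ≫ f.appLE ⊤ U le_top

theorem exists_chart [Smooth f] (x : X) :
    ∃ U : X.Opens, IsAffineOpen U ∧ x ∈ U ∧ (sectionsHom f U).hom.IsStandardSmooth := by
  obtain ⟨W, hW, U, hU, hx, e, h⟩ := Smooth.exists_isStandardSmooth f x
  have hW' : W = ⊤ := top_le_iff.mp fun y _ => (Subsingleton.elim (f x) y) ▸ e hx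
  subst hW'
  refine ⟨U, hU, hx, ?_⟩
  exact RingHom.isStandardSmooth_respectsIso.2 (f.appLE ⊤ U e).hom
    (Scheme.ΓSpecIso (CommRingCat.of K)).symm.commRingCatIsoToRingEquiv h

theorem exists_chart_of_relativeDimension (n : ℕ) [SmoothOfRelativeDimension n f] (x : X) :
    ∃ U : X.Opens, IsAffineOpen U ∧ x ∈ U ∧
      (sectionsHom f U).hom.IsStandardSmoothOfRelativeDimension n := by
  obtain ⟨W, hW, U, hU, hx, e, h⟩ :=
    SmoothOfRelativeDimension.exists_isStandardSmoothOfRelativeDimension (n := n) (f := f) x
  have hW' : W = ⊤ := top_le_iff.mp fun y _ => (Subsingleton.elim (f x) y) ▸ e hx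
  subst hW'
  refine ⟨U, hU, hx, ?_⟩
  exact RingHom.isStandardSmoothOfRelativeDimension_respectsIso.2 (f.appLE ⊤ U e).hom
    (Scheme.ΓSpecIso (CommRingCat.of K)).symm.commRingCatIsoToRingEquiv h

theorem fromSpec_comp_eq {U : X.Opens} (hU : IsAffineOpen U) :
    hU.fromSpec ≫ f = Spec.map (sectionsHom f U) := by
  rw [← IsAffineOpen.SpecMap_appLE_fromSpec f (isAffineOpen_top (Spec (CommRingCat.of K))) hU
    (show U ≤ f ⁻¹ᵁ ⊤ from le_top)]
  simp [sectionsHom, Spec.map_comp, IsAffineOpen.fromSpec_top, Scheme.isoSpec_Spec]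

theorem isReduced_of_smooth [Smooth f] : IsReduced X := by
  have hred : ∀ x : X, _root_.IsReduced (X.presheaf.stalk x) := fun x => by
    obtain ⟨U, hU, hx, h⟩ := exists_chart f x
    let := (sectionsHom f U).hom.toAlgebra
    have : Algebra.IsStandardSmooth K Γ(X, U) := h
    have := isReduced_of_standardSmooth K Γ(X, U)
    let := X.presheaf.algebra_section_stalk ⟨x, hx⟩
    have := hU.isLocalization_stalk ⟨x, hx⟩
    exact isReduced_localizationPreserves (hU.primeIdealOf ⟨x, hx⟩).asIdeal.primeCompl
      (X.presheaf.stalk x) ‹_›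
  exact isReduced_of_isReduced_stalk X

end Sections

/-! ### Translations -/

section Translate

variable {A : Scheme.{u}} {f : A ⟶ Spec (CommRingCat.of K)} (G : RelativeGroupLaw K f)

/-- The translation by a rational point on the right. -/
def translate (a : SchemeHomOver (𝟙 (Spec (CommRingCat.of K))) f) : A ⟶ A :=
  (G.mul f ⟨𝟙 A, Category.id_comp f⟩ (schemeHomOverComp f (Category.comp_id f) a)).1

/-- Composing a point with a translation adds the translating point. -/
theorem comp_translate {T : Scheme.{u}} (t : T ⟶ Spec (CommRingCat.of K)) (x : SchemeHomOver t f)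
    (a : SchemeHomOver (𝟙 (Spec (CommRingCat.of K))) f) :
    x.1 ≫ translate G a = (G.mul t x (schemeHomOverComp t (Category.comp_id t) a)).1 := by
  have h := congrArg Subtype.val
    (G.mul_natural f t x.1 x.2 ⟨𝟙 A, Category.id_comp f⟩
      (schemeHomOverComp f (Category.comp_id f) a))
  refine h.trans ?_
  congr 2
  exact Subtype.ext (by simp [← Category.assoc, x.2])

theorem translate_comp (a b : SchemeHomOver (𝟙 (Spec (CommRingCat.of K))) f) :
    translate G a ≫ translate G b = translate G (G.mul _ a b) := by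
  rw [show translate G a = (G.mul f ⟨𝟙 A, Category.id_comp f⟩
    (schemeHomOverComp f (Category.comp_id f) a)).1 from rfl, comp_translate, G.mul_assoc,
    ← G.mul_natural]
  rfl

theorem translate_one : translate G (G.one _) = 𝟙 A := by
  simp [translate, G.one_natural, G.mul_one]

theorem mul_inv_cancel' {T : Scheme.{u}} (t : T ⟶ Spec (CommRingCat.of K)) (x : SchemeHomOver t f) :
    G.mul t x (G.inv t x) = G.one t := by
  calc G.mul t x (G.inv t x) = G.mul t (G.one t) (G.mul t x (G.inv t x)) := (G.one_mul t _).symm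
    _ = G.mul t (G.mul t (G.inv t (G.inv t x)) (G.inv t x)) (G.mul t x (G.inv t x)) := by
      rw [G.inv_mul_cancel]
    _ = G.mul t (G.inv t (G.inv t x)) (G.mul t (G.mul t (G.inv t x) x) (G.inv t x)) := by
      rw [G.mul_assoc, G.mul_assoc]
    _ = G.one t := by rw [G.inv_mul_cancel, G.one_mul, G.inv_mul_cancel]

/-- The translation by a rational point as an automorphism. -/
def translateIso (a : SchemeHomOver (𝟙 (Spec (CommRingCat.of K))) f) : A ≅ A where
  hom := translate G a
  inv := translate G (G.inv _ a)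
  hom_inv_id := by rw [translate_comp, mul_inv_cancel', translate_one]
  inv_hom_id := by rw [translate_comp, G.inv_mul_cancel, translate_one]

include G in
theorem exists_homeomorph_apply_eq [IsAlgClosed K] [LocallyOfFiniteType f] {x y : A}
    (hx : IsClosed {x}) (hy : IsClosed {y}) :
    ∃ a : SchemeHomOver (𝟙 (Spec (CommRingCat.of K))) f,
      (translateIso G a).hom.homeomorph x = y := by
  let p : SchemeHomOver (𝟙 (Spec (CommRingCat.of K))) f :=
    ⟨pointOfClosedPoint f x hx, pointOfClosedPoint_comp f x hx⟩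
  let q : SchemeHomOver (𝟙 (Spec (CommRingCat.of K))) f :=
    ⟨pointOfClosedPoint f y hy, pointOfClosedPoint_comp f y hy⟩
  refine ⟨G.mul _ (G.inv _ p) q, ?_⟩
  have h : p.1 ≫ translate G (G.mul _ (G.inv _ p) q) = q.1 := by
    rw [comp_translate]
    congr 1
    rw [show schemeHomOverComp (𝟙 _) (Category.comp_id _) (G.mul _ (G.inv _ p) q) =
      G.mul _ (G.inv _ p) q from Subtype.ext (Category.id_comp _), ← G.mul_assoc, mul_inv_cancel',
      G.one_mul]
  have h' := congr(($h) (IsLocalRing.closedPoint K))
  exact (congrArg (fun z => translate G (G.mul _ (G.inv _ p) q) z)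
    (pointOfClosedPoint_apply f x hx _).symm).trans (h'.trans (pointOfClosedPoint_apply f y hy _))

end Translate

/-! ### Homogeneous spaces and integrality -/

/-- A connected Noetherian Jacobson space whose closed points are permuted transitively by
homeomorphisms is irreducible. -/
theorem irreducibleSpace_of_homogeneous {X : Type u} [TopologicalSpace X] [JacobsonSpace X]
    [TopologicalSpace.NoetherianSpace X] [ConnectedSpace X]
    (hh : ∀ x y : X, IsClosed {x} → IsClosed {y} → ∃ φ : X ≃ₜ X, φ x = y) : IrreducibleSpace X := by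
  have hfin : (irreducibleComponents X).Finite :=
    TopologicalSpace.NoetherianSpace.finite_irreducibleComponents
  -- Let `Z₀` be a component and `R` the union of the others; some closed `x₀` lies on `Z₀` only.
  let Z₀ := irreducibleComponent (Classical.arbitrary X)
  have hZ₀ : Z₀ ∈ irreducibleComponents X := irreducibleComponent_mem_irreducibleComponents _
  let R : Set X := ⋃₀ (irreducibleComponents X \ {Z₀})
  have hR : IsClosed R := by
    rw [show R = ⋃ s ∈ irreducibleComponents X \ {Z₀}, s from Set.sUnion_eq_biUnion]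
    exact hfin.sdiff.isClosed_biUnion fun s hs => isClosed_of_mem_irreducibleComponents s hs.1
  have hcov : Z₀ ∪ R = Set.univ := by
    rw [Set.eq_univ_iff_forall]
    intro x
    by_cases hx : irreducibleComponent x = Z₀
    · exact Or.inl (hx ▸ mem_irreducibleComponent)
    · exact Or.inr ⟨_, ⟨irreducibleComponent_mem_irreducibleComponents x, hx⟩,
        mem_irreducibleComponent⟩
  have hne : Rᶜ.Nonempty := by
    by_contra h
    rw [Set.not_nonempty_iff_eq_empty, Set.compl_empty_iff] at h
    have hsub : Z₀ ⊆ ⋃₀ ↑(hfin.sdiff (t := {Z₀})).toFinset := by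
      rw [Set.Finite.coe_toFinset]
      exact fun z _ => h.ge (Set.mem_univ z)
    obtain ⟨Z, hZ, hZsub⟩ := (isIrreducible_iff_sUnion_isClosed.mp hZ₀.1) _
      (fun z hz => isClosed_of_mem_irreducibleComponents z
        ((Set.Finite.mem_toFinset _).mp hz).1) hsub
    rw [Set.Finite.mem_toFinset] at hZ
    exact hZ.2 (le_antisymm (hZ₀.2 hZ.1.1 hZsub) hZsub)
  obtain ⟨x₀, hx₀R, hx₀⟩ := nonempty_inter_closedPoints hne hR.isOpen_compl.isLocallyClosed
  have huniq : ∀ Z : Set X, IsIrreducible Z → x₀ ∈ Z → Z ⊆ Z₀ := by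
    intro Z hZ hmem
    obtain ⟨Z', hZ', hsub⟩ := exists_mem_irreducibleComponents_subset_of_isIrreducible Z hZ
    by_cases h : Z' = Z₀
    · exact h ▸ hsub
    · exact absurd ⟨Z', ⟨hZ', h⟩, hsub hmem⟩ hx₀R
  -- A closed point of `Z₀ ∩ R` could be moved to `x₀`, so would lie on one component only.
  have hdisj : Z₀ ∩ R = ∅ := by
    by_contra h
    rw [← ne_eq, ← Set.nonempty_iff_ne_empty] at h
    obtain ⟨x, ⟨hxZ, Z, hZ, hxR⟩, hx⟩ := nonempty_inter_closedPoints h
      ((isClosed_of_mem_irreducibleComponents _ hZ₀).inter hR).isLocallyClosed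
    obtain ⟨φ, hφ⟩ := hh x x₀ hx hx₀
    have hpre : IsIrreducible (φ ⁻¹' Z₀) := by
      rw [← Homeomorph.image_symm]
      exact hZ₀.1.image _ φ.symm.continuous.continuousOn
    have key : ∀ W ∈ irreducibleComponents X, x ∈ W → W = φ ⁻¹' Z₀ := fun W hW hxW => by
      have hsub : W ⊆ φ ⁻¹' Z₀ := Set.image_subset_iff.mp
        (huniq _ (hW.1.image _ φ.continuous.continuousOn) ⟨x, hxW, hφ⟩)
      exact le_antisymm hsub (hW.2 hpre hsub)
    exact hZ.2 ((key Z hZ.1 hxR).trans (key Z₀ hZ₀ hxZ).symm)
  -- Hence `Z₀` is clopen, so everything by connectedness.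
  have hclopen : IsClopen Z₀ := by
    refine ⟨isClosed_of_mem_irreducibleComponents _ hZ₀, ?_⟩
    have : Z₀ = Rᶜ := by
      ext x
      refine ⟨fun hx hxR => (hdisj.le ⟨hx, hxR⟩).elim, fun hx => ?_⟩
      exact (hcov.ge (Set.mem_univ x)).resolve_right hx
    rw [this]
    exact hR.isOpen_compl
  have huniv : Z₀ = Set.univ := hclopen.eq_univ hZ₀.1.nonempty
  exact { toPreirreducibleSpace := ⟨huniv ▸ hZ₀.1.isPreirreducible⟩, toNonempty := inferInstance }

variable [IsAlgClosed K]

/-- A connected smooth group scheme over an algebraically closed field is integral. -/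
theorem isIntegral_of_bundle {A : Scheme.{u}} (f : A ⟶ Spec (CommRingCat.of K))
    (G : RelativeGroupLaw K f) (h : AbelianSchemePropertyBundle K f) : IsIntegral A := by
  have := h.smooth
  have := h.proper
  have : JacobsonSpace A := LocallyOfFiniteType.jacobsonSpace f
  have : IsLocallyNoetherian A := LocallyOfFiniteType.isLocallyNoetherian f
  have : CompactSpace A := QuasiCompact.compactSpace_of_compactSpace f
  have : IsNoetherian A := {}
  have : ConnectedSpace A := by
    rw [connectedSpace_iff_univ]
    have hpre : f.base ⁻¹' {IsLocalRing.closedPoint K} = Set.univ :=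
      Set.eq_univ_of_forall fun a => Subsingleton.elim (f a) _
    exact hpre ▸ h.connectedFibres (IsLocalRing.closedPoint K)
  rw [isIntegral_iff_irreducibleSpace_and_isReduced]
  refine ⟨irreducibleSpace_of_homogeneous fun x y hx hy => ?_, isReduced_of_smooth f⟩
  obtain ⟨a, ha⟩ := exists_homeomorph_apply_eq G hx hy
  exact ⟨_, ha⟩

/-- A scheme covered by integral opens meeting each other is integral. -/
theorem isIntegral_of_iSup {X : Scheme.{u}} [Nonempty X] {ι : Type*} (O : ι → X.Opens)
    (hO : (⨆ i, O i) = ⊤) (hint : ∀ i, IsIntegral (O i : Scheme.{u}))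
    (hmeet : ∀ i j, ((O i : Set X) ∩ O j).Nonempty) :
    IsIntegral X := by
  have hcov : ∀ x : X, ∃ i, x ∈ O i := fun x =>
    TopologicalSpace.Opens.mem_iSup.mp (hO ▸ TopologicalSpace.Opens.mem_top x)
  rw [isIntegral_iff_irreducibleSpace_and_isReduced]
  refine ⟨{ toPreirreducibleSpace := ⟨?_⟩, toNonempty := inferInstance }, ?_⟩
  · have hirr : ∀ i, IsIrreducible (O i : Set X) := fun i => by
      have := hint i
      rw [← Scheme.Opens.range_ι (O i), ← Set.image_univ]
      exact (IrreducibleSpace.isIrreducible_univ (O i : Scheme.{u})).image _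
        (O i).ι.continuous.continuousOn
    rintro u v hu hv ⟨a, -, ha⟩ ⟨b, -, hb⟩
    obtain ⟨i, hi⟩ := hcov a
    obtain ⟨j, hj⟩ := hcov b
    obtain ⟨c, hci, hcu, hcj⟩ := (hirr i).2 u (O j) hu (O j).2 ⟨a, hi, ha⟩ (hmeet i j)
    obtain ⟨d, -, ⟨-, hdu⟩, hdv⟩ :=
      (hirr j).2 (O i ∩ u) v ((O i).2.inter hu) hv ⟨c, hcj, hci, hcu⟩ ⟨b, hj, hb⟩
    exact ⟨d, trivial, hdu, hdv⟩
  · have : ∀ x : X, _root_.IsReduced (X.presheaf.stalk x) := fun x => by
      obtain ⟨i, hi⟩ := hcov x
      have := hint i
      have : IsDomain ((O i : Scheme.{u}).presheaf.stalk ⟨x, hi⟩) := inferInstance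
      exact isReduced_of_injective ((O i).stalkIso ⟨x, hi⟩).inv.hom
        ((O i).stalkIso ⟨x, hi⟩).symm.commRingCatIsoToRingEquiv.injective
    exact isReduced_of_isReduced_stalk X

theorem isIntegral_pullback_of_integral {X : Scheme.{u}} [IsIntegral X]
    (f : X ⟶ Spec (CommRingCat.of K)) [LocallyOfFiniteType f] (k' : Type u) [Field k']
    [Algebra K k'] :
    IsIntegral (pullback f (specK K k')) := by
  let O : {U : X.Opens // IsAffineOpen U ∧ Nonempty U} → (pullback f (specK K k')).Opens := fun U =>
    pullback.fst f (specK K k') ⁻¹ᵁ U.1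
  have : Surjective (specK K k') := ⟨Function.surjective_to_subsingleton (β := Spec _) _⟩
  have hsurj : Function.Surjective (pullback.fst f (specK K k')).base :=
    (inferInstance : Surjective (pullback.fst f (specK K k'))).surj
  have : Nonempty ↥(pullback f (specK K k')) := ⟨(hsurj (Classical.arbitrary X)).choose⟩
  refine isIntegral_of_iSup O ?_ (fun U => ?_) fun U V => ?_
  · rw [eq_top_iff]
    intro p _
    obtain ⟨_, ⟨U, hU, rfl⟩, hp, -⟩ := X.isBasis_affineOpens.exists_subset_of_mem_open
      (Set.mem_univ (pullback.fst f (specK K k') p)) isOpen_univ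
    exact TopologicalSpace.Opens.mem_iSup.mpr ⟨⟨U, hU, ⟨⟨_, hp⟩⟩⟩, hp⟩
  · obtain ⟨U, hU, hne⟩ := U
    let := (sectionsHom f U).hom.toAlgebra
    have hf : Spec.map (sectionsHom f U) =
        Spec.map (CommRingCat.ofHom (algebraMap K Γ(X, U))) := rfl
    have : Algebra.FiniteType K Γ(X, U) := (HasRingHomProperty.Spec_iff (P := @LocallyOfFiniteType)
      (φ := sectionsHom f U)).mp (fromSpec_comp_eq f hU ▸ inferInstance)
    have := Jac.isDomain_tensorProduct (k := K) Γ(X, U) k'
    have : IsDomain (TensorProduct K Γ(X, U) k') :=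
      (Algebra.TensorProduct.comm K Γ(X, U) k').toMulEquiv.isDomain _
    let e : (pullback.fst f (specK K k') ⁻¹ᵁ U : Scheme.{u}) ≅
        Spec (CommRingCat.of (TensorProduct K Γ(X, U) k')) :=
      (pullbackRestrictIsoRestrict (pullback.fst f (specK K k')) U).symm ≪≫
        pullbackSymmetry _ _ ≪≫ pullbackRightPullbackFstIso f (specK K k') U.ι ≪≫
        asIso (pullback.map (U.ι ≫ f) (specK K k')
          (Spec.map (CommRingCat.ofHom (algebraMap K Γ(X, U)))) (specK K k') hU.isoSpec.hom
            (𝟙 _) (𝟙 _)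
          (by rw [← hf, ← fromSpec_comp_eq f hU, Category.comp_id, hU.isoSpec_hom,
              hU.toSpecΓ_fromSpec_assoc]) (by simp)) ≪≫
        pullbackSpecIso K Γ(X, U) k'
    exact IsIntegral.of_isIso e.inv
  · obtain ⟨x, hx⟩ := nonempty_preirreducible_inter U.1.2 V.1.2
      (Set.nonempty_coe_sort.mp U.2.2) (Set.nonempty_coe_sort.mp V.2.2)
    obtain ⟨p, rfl⟩ := hsurj x
    exact ⟨p, hx⟩

/-- An integral scheme of finite type over an algebraically closed field is geometrically
integral. -/
theorem geometricallyIntegral_of_isIntegral {X : Scheme.{u}} [IsIntegral X]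
    (f : X ⟶ Spec (CommRingCat.of K)) [LocallyOfFiniteType f] : GeometricallyIntegral f := by
  refine ⟨fun k' _ y Z fst snd hp => ?_⟩
  obtain ⟨ψ, rfl⟩ : ∃ ψ, Spec.map ψ = y := ⟨_, Spec.map_preimage y⟩
  let := ψ.hom.toAlgebra
  have : IsIntegral (pullback f (Spec.map ψ)) := isIntegral_pullback_of_integral f k'
  exact IsIntegral.of_isIso hp.isoPullback.inv

/-! ### Abelian varieties -/

namespace AV

variable (V : AV K)

/-- An abelian variety over an algebraically closed field is geometrically integral. -/
theorem geometricallyIntegral : GeometricallyIntegral V.f := geometricallyIntegral_of_isIntegral V.f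

/-- The square of an abelian variety is integral. -/
theorem isIntegral_sq : IsIntegral (pullback V.f V.f) := by
  have := V.geometricallyIntegral
  have : IsLocallyNoetherian V.A := LocallyOfFiniteType.isLocallyNoetherian V.f
  infer_instance

/-- The square of an abelian variety over an algebraically closed field is geometrically
integral. -/
theorem geometricallyIntegral_sqStr : GeometricallyIntegral V.sqStr :=
  have := V.isIntegral_sq
  geometricallyIntegral_of_isIntegral V.sqStr

omit [IsAlgClosed K] in
/-- The function field of an abelian variety of dimension `g` has transcendence degree `g`. -/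
theorem trdeg_functionField (g : ℕ) [SmoothOfRelativeDimension g V.f] :
    letI := ffAlgebra V.f
    Algebra.trdeg K V.A.functionField = g := by
  let := ffAlgebra V.f
  obtain ⟨U, hU, hx, h⟩ := exists_chart_of_relativeDimension V.f g (genericPoint V.A)
  have : Nonempty U := ⟨⟨_, hx⟩⟩
  let := (sectionsHom V.f U).hom.toAlgebra
  have : Algebra.IsStandardSmoothOfRelativeDimension g K Γ(V.A, U) := h
  have := functionField_isFractionRing_of_isAffineOpen V.A U hU
  have : IsScalarTower K Γ(V.A, U) V.A.functionField := by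
    refine .of_algebraMap_eq' ?_
    change ((V.A.presheaf.germ ⊤ (genericPoint V.A) trivial).hom.comp
      ((V.f.appTop).hom.comp (Scheme.ΓSpecIso (CommRingCat.of K)).inv.hom)) =
      (V.A.germToFunctionField U).hom.comp (sectionsHom V.f U).hom
    rw [← CommRingCat.hom_comp, ← CommRingCat.hom_comp, ← CommRingCat.hom_comp]
    congr 1
    simp only [sectionsHom, Scheme.Hom.appLE, Scheme.germToFunctionField, Scheme.Hom.appTop,
      Category.assoc]
    exact congrArg _ (congrArg _
      (V.A.presheaf.germ_res (homOfLE le_top) (genericPoint V.A) hx).symm)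
  exact trdeg_fractionRing_of_standardSmooth K Γ(V.A, U) V.A.functionField g

variable {V}

omit [IsAlgClosed K] in
theorem range_hom_subset (x : V.K_Points) (W : V.A.Opens)
    (h : x.hom.base (IsLocalRing.closedPoint K) ∈ W) : Set.range x.hom.base ⊆ W := by
  rintro _ ⟨p, rfl⟩
  rwa [Subsingleton.elim p (IsLocalRing.closedPoint K)]

omit [IsAlgClosed K] in
theorem hom_comp_translate (x a : V.K_Points) :
    x.hom ≫ translate V.G a = (x + a).hom := by
  refine (comp_translate V.G _ x a).trans ?_
  rw [show schemeHomOverComp (𝟙 _) (Category.comp_id _) a = a from Subtype.ext (Category.id_comp _)]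
  rfl

omit [IsAlgClosed K] in
theorem idPt_add_comap_hom (a : V.K_Points) :
    (V.idPt + a.comap V.f V.f (Category.comp_id _)).hom = translate V.G a := rfl

theorem exists_point {s : Set V.A} (hs : IsLocallyClosed s) (hne : s.Nonempty) :
    ∃ x : V.K_Points, x.hom.base (IsLocalRing.closedPoint K) ∈ s := by
  have : JacobsonSpace V.A := LocallyOfFiniteType.jacobsonSpace V.f
  obtain ⟨x, hxs, hx⟩ := nonempty_inter_closedPoints hne hs
  exact ⟨⟨pointOfClosedPoint V.f x hx, pointOfClosedPoint_comp V.f x hx⟩,
    (pointOfClosedPoint_apply V.f x hx _).symm ▸ hxs⟩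

variable (V)

/-- Every rational point is a difference of two rational points in a given open. -/
theorem exists_sub_eq (W : V.A.Opens) (hW : (W : Set V.A).Nonempty) (w : V.K_Points) :
    ∃ u v : V.K_Points, Set.range u.hom.base ⊆ W ∧ Set.range v.hom.base ⊆ W ∧ u - v = w := by
  let τ := translateIso V.G w
  have hW' : ((τ.hom ⁻¹ᵁ W : V.A.Opens) : Set V.A).Nonempty :=
    hW.preimage τ.hom.homeomorph.surjective
  obtain ⟨v, hv, hv'⟩ := exists_point (W.2.inter (τ.hom ⁻¹ᵁ W).2).isLocallyClosed
    (nonempty_preirreducible_inter W.2 (τ.hom ⁻¹ᵁ W).2 hW hW')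
  refine ⟨v + w, v, range_hom_subset _ W ?_, range_hom_subset v W hv, add_sub_cancel_left v w⟩
  rw [← hom_comp_translate]
  exact hv'

/-- The translates of a non-empty open set cover the variety. -/
theorem exists_translate_mem (W : V.A.Opens) (hW : (W : Set V.A).Nonempty) (x : V.A) :
    ∃ a : V.K_Points, (V.idPt + a.comap V.f V.f (Category.comp_id _)).hom.base x ∈ W := by
  obtain ⟨y, hy⟩ := exists_point (V := V) isClosed_closure.isLocallyClosed
    ⟨x, subset_closure (Set.mem_singleton x)⟩
  obtain ⟨z, hz⟩ := exists_point W.2.isLocallyClosed hW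
  refine ⟨z - y, ?_⟩
  rw [idPt_add_comap_hom]
  have hmap : (translate V.G (z - y)).base (y.hom.base (IsLocalRing.closedPoint K)) ∈ W := by
    have e := congr($(hom_comp_translate y (z - y)) (IsLocalRing.closedPoint K))
    rw [add_sub_cancel] at e
    exact e ▸ hz
  exact ((specializes_iff_mem_closure.mpr hy).map
    (translate V.G (z - y)).continuous).mem_open W.2 hmap

end AV

end Fermat.Agent.AbVar

end
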