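import Mathlib.AlgebraicGeometry.Morphisms.Proper
import Mathlib.Combinatorics.Quiver.ReflQuiver
import Mathlib.Tactic

/-!
# Global functions on proper schemes

Global functions on a proper integral scheme over an algebraically closed field are constants.
-/

set_option autoImplicit false

universe u

noncomputable section

open CategoryTheory AlgebraicGeometry

namespace Fermat.Agent.AbVar

variable {K : Type u} [Field K] [IsAlgClosed K] {X : Scheme.{u}} (x : X ⟶ Spec (CommRingCat.of K))

/-- Global functions on a proper integral scheme over an algebraically closed field are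
constants. -/
theorem appTop_bijective [IsIntegral X] [IsProper x] : Function.Bijective x.appTop.hom := by
  let : Field Γ(Spec (CommRingCat.of K), ⊤) :=
    ((Scheme.ΓSpecIso (CommRingCat.of K)).commRingCatIsoToRingEquiv.toMulEquiv.isField
      (Field.toIsField K)).toField
  let := (isField_of_universallyClosed K x).toField
  have : IsAlgClosed Γ(Spec (CommRingCat.of K), ⊤) :=
    IsAlgClosed.of_ringEquiv K _ (Scheme.ΓSpecIso (CommRingCat.of K)).commRingCatIsoToRingEquiv.symm
  algebraize [x.appTop.hom]
  have : Module.Finite Γ(Spec (CommRingCat.of K), ⊤) Γ(X, ⊤) :=
    finite_appTop_of_universallyClosed K x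
  exact IsAlgClosed.algebraMap_bijective_of_isIntegral

end Fermat.Agent.AbVar

end
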