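import Fermat.Agent.AbVar.Basic
import Fermat.Agent.AbVar.Pic.Basic
import Fermat.Agent.AbVar.Global
import Fermat.Agent.AbVar.Spread.BaseChange

/-!
# Classes on a product with a proper variety which are trivial on the fibres

The main theorems are `exists_open_map_eq_zero` and `eq_zero_of_locally`.
-/

set_option autoImplicit false

universe u

noncomputable section

open CategoryTheory CategoryTheory.Limits AlgebraicGeometry NeronModelInfra TopologicalSpace

namespace Fermat.Agent.AbVar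

variable {K : Type u} [Field K] [IsAlgClosed K] {S X : Scheme.{u}}
  (s : S ⟶ Spec (CommRingCat.of K)) [IsIntegral S] [LocallyOfFiniteType s]
  (x : X ⟶ Spec (CommRingCat.of K)) [IsProper x] [GeometricallyIntegral x]

/-! ### Fibres and constant sections -/

/-- The fibre over a point with values in a field. -/
def fibreMap {k' : Type u} [Field k'] [Algebra K k'] (η : SchemeHomOver (specK K k') s) :
    pullback (specK K k') x ⟶ pullback s x :=
  pullback.map _ _ _ _ η.1 (𝟙 X) (𝟙 _) (by rw [Category.comp_id, η.2]) (by simp)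

/-- The section of the product given by a rational point. -/
def constSection (e : SchemeHomOver (𝟙 (Spec (CommRingCat.of K))) x) : S ⟶ pullback s x :=
  pullback.lift (𝟙 S) (s ≫ e.1) (by rw [Category.assoc, e.2, Category.comp_id, Category.id_comp])

/-- Ratios of compatible families agree on overlaps. -/
theorem ratio_eq {A B C : Type u} [CommRing A] [CommRing B] [CommRing C] (f : A →+* C)
    (f' : B →+* C) {a b : A} {a' b' : B} (hb : IsUnit b) (hb' : IsUnit b') (g : C)
    (ha : f a = g * f' a') (hbb : f b = g * f' b') :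
    f (a * (hb.unit⁻¹ : Aˣ)) = f' (a' * (hb'.unit⁻¹ : Bˣ)) := by
  refine (hb.map f).mul_left_inj.mp ?_
  have h₁ : f (a * (hb.unit⁻¹ : Aˣ)) * f b = f a := by
    rw [← map_mul, mul_assoc, IsUnit.val_inv_mul, mul_one]
  have h₂ : f' (a' * (hb'.unit⁻¹ : Bˣ)) * f' b' = f' a' := by
    rw [← map_mul, mul_assoc, IsUnit.val_inv_mul, mul_one]
  rw [h₁, ha, hbb, mul_left_comm, h₂]

theorem pl_id {Y : Scheme.{u}} {U V : Y.Opens} (h : V ≤ (𝟙 Y) ⁻¹ᵁ U) (b : Γ(Y, U)) :
    pl (𝟙 Y) h b = res Y h b := by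
  simp only [pl, res, Scheme.Hom.appLE]
  rfl

omit [IsAlgClosed K] [IsIntegral S] [LocallyOfFiniteType s] [IsProper x]
  [GeometricallyIntegral x] in
theorem isPullback_fibreMap {k' : Type u} [Field k'] [Algebra K k']
    (η : SchemeHomOver (specK K k') s) :
    IsPullback (fibreMap s x η) (pullback.fst (specK K k') x) (pullback.fst s x) η.1 := by
  refine IsPullback.of_right ?_ (pullback.lift_fst _ _ _) (IsPullback.of_hasPullback s x).flip
  have e : fibreMap s x η ≫ pullback.snd s x = pullback.snd (specK K k') x :=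
    (pullback.lift_snd _ _ _).trans (Category.comp_id _)
  rw [e, η.2]
  exact (IsPullback.of_hasPullback _ _).flip

omit [IsAlgClosed K] [IsIntegral S] [LocallyOfFiniteType s] [IsProper x]
  [GeometricallyIntegral x] in
theorem constSection_fst (e : SchemeHomOver (𝟙 (Spec (CommRingCat.of K))) x) :
    constSection s x e ≫ pullback.fst s x = 𝟙 S :=
  pullback.lift_fst _ _ _

omit [IsAlgClosed K] [LocallyOfFiniteType s] [IsProper x] [GeometricallyIntegral x] in
/-- A field-valued point at the generic point is flat on an open. -/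
private theorem flat_appLE_of_genericPoint {k' : Type u} [Field k']
    (f : Spec (CommRingCat.of k') ⟶ S) {S₀ : S.Opens} [Nonempty S₀]
    (hUT : (⊤ : (Spec (CommRingCat.of k')).Opens) ≤ f ⁻¹ᵁ S₀)
    {z₀ : ↥(Spec (CommRingCat.of k'))} (hz₀ : f.base z₀ = genericPoint S) :
    (f.appLE S₀ ⊤ hUT).hom.Flat := by
  have hT : IsField Γ(Spec (CommRingCat.of k'), ⊤) :=
    (Scheme.ΓSpecIso (CommRingCat.of k')).commRingCatIsoToRingEquiv.toMulEquiv.isField
      (Field.toIsField k')
  have hinj : Function.Injective (f.appLE S₀ ⊤ hUT).hom := by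
    refine (injective_iff_map_eq_zero _).mpr fun r hr => ?_
    refine (basicOpen_eq_bot_iff r).mp ?_
    by_contra hne
    have hmem : genericPoint S ∈ S.basicOpen r :=
      ((genericPoint_spec S).mem_open_set_iff (S.basicOpen r).isOpen).mpr
      (by simpa [Set.nonempty_iff_ne_empty] using hne)
    have h := Scheme.basicOpen_appLE f ⊤ S₀ hUT r
    rw [hr, Scheme.basicOpen_zero, top_inf_eq] at h
    have : z₀ ∈ f ⁻¹ᵁ S.basicOpen r := show f.base z₀ ∈ S.basicOpen r by rwa [hz₀]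
    exact (h ▸ this : z₀ ∈ (⊥ : (Spec (CommRingCat.of k')).Opens)).elim
  algebraize [(f.appLE S₀ ⊤ hUT).hom]
  let := hT.toField
  show Module.Flat Γ(S, S₀) Γ(Spec (CommRingCat.of k'), ⊤)
  let F := FractionRing Γ(S, S₀)
  let : Algebra F Γ(Spec (CommRingCat.of k'), ⊤) := (IsFractionRing.lift hinj).toAlgebra
  have : IsScalarTower Γ(S, S₀) F Γ(Spec (CommRingCat.of k'), ⊤) :=
    .of_algebraMap_eq fun r => (IsFractionRing.lift_algebraMap hinj r).symm
  exact Module.Flat.trans _ F _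

omit [IsAlgClosed K] [IsIntegral S] [LocallyOfFiniteType s] [GeometricallyIntegral x] in
/-- An open of the product containing the fibre over `z` contains the preimage of an open around
`z`, the projection being closed. -/
private theorem exists_open_preimage_le (B : (pullback s x).Opens) {z : S}
    (hB : ∀ w, (pullback.fst s x).base w = z → w ∈ B) :
    ∃ W : S.Opens, z ∈ W ∧ pullback.fst s x ⁻¹ᵁ W ≤ B := by
  refine ⟨⟨((pullback.fst s x).base '' (B : Set ↥(pullback s x))ᶜ)ᶜ,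
    ((pullback.fst s x).isClosedMap _ B.isOpen.isClosed_compl).isOpen_compl⟩,
    fun ⟨w, hwB, hw⟩ => hwB (hB w hw), fun w hw => ?_⟩
  by_contra hwB
  exact hw ⟨w, hwB, rfl⟩

/-! ### Triviality over an open of the base -/

omit [Field K] [IsAlgClosed K] in
/-- Two families twisted by the same cocycle on a proper integral variety, one of units and one not
identically zero: their quotient is a nonzero global function, hence a unit, so both are units. -/
private theorem isUnit_of_twisted {k' : Type u} [Field k'] {Z : Scheme.{u}}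
    (f : Z ⟶ Spec (CommRingCat.of k')) [IsProper f] [IsIntegral Z] {κ : Type u} (V : κ → Z.Opens)
    (hcov : ∀ z, ∃ j, z ∈ V j) (a m : ∀ j, Γ(Z, V j)) (ha : ∀ j, IsUnit (a j))
    (g : ∀ j l, Γ(Z, V j ⊓ V l))
    (hag : ∀ j l, res Z inf_le_left (a j) = g j l * res Z inf_le_right (a l))
    (hmg : ∀ j l, res Z inf_le_left (m j) = g j l * res Z inf_le_right (m l))
    (hm0 : ∃ j, m j ≠ 0) (j : κ) : IsUnit (m j) := by
  obtain ⟨y, hy⟩ := exists_res_glue (W := (⊤ : Z.Opens)) V (fun j => le_top)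
    (fun z _ => Opens.mem_iSup.mpr (hcov z))
    (fun j => m j * ((ha j).unit⁻¹ : Γ(Z, V j)ˣ))
    (fun j l => ratio_eq _ _ (ha j) (ha l) (g j l) (hmg j l) (hag j l))
  let := (isField_of_universallyClosed k' f).toField
  obtain ⟨j₀, hj₀⟩ := hm0
  have hy0 : y ≠ 0 := fun h => by
    have := hy j₀
    rw [h, map_zero] at this
    exact hj₀ ((Units.mul_left_eq_zero _).mp this.symm)
  have h := (isUnit_iff_ne_zero.mpr hy0).map (res _ (le_top : V j ≤ ⊤))
  rw [hy] at h
  exact isUnit_of_mul_isUnit_left h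

omit [Field K] [IsAlgClosed K] in
/-- A cocycle is trivial on an open covered by the loci where a twisted section is invertible. -/
private theorem map_ι_eq_zero_of_sections {Y : Scheme.{u}} (c : Coc Y) {κ : Type u}
    (V : κ → Y.Opens) (τ : κ → c.ι) (hV : ∀ j, V j ≤ c.U (τ j)) (m : ∀ j, Γ(Y, V j))
    (hm : ∀ j l, res Y inf_le_left (m j) =
      res Y (inf_le_inf (hV j) (hV l)) (c.g (τ j) (τ l)).val * res Y inf_le_right (m l))
    (W' : Y.Opens) (hW : W' ≤ ⨆ j, Y.basicOpen (m j)) : Pic.map W'.ι (Pic.mk c) = 0 := by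
  rw [Pic.map_mk]
  refine Coc.mk_eq_zero_of_local (c.comap W'.ι) (fun j => W'.ι ⁻¹ᵁ Y.basicOpen (m j))
    (fun j => τ j) (fun j => W'.ι.preimage_mono ((Y.basicOpen_le _).trans (hV j)))
    ?_ (fun j => pl W'.ι (W'.ι.preimage_mono (Y.basicOpen_le _)) (m j)) (fun j => ?_)
    fun j l W₀ hj hl => ?_
  · refine eq_top_iff.mpr fun w _ => Opens.mem_iSup.mpr ?_
    obtain ⟨j, hj⟩ := Opens.mem_iSup.mp (hW w.2 : W'.ι.base w ∈ _)
    exact ⟨j, hj⟩
  · rw [← pl_res W'.ι (Y.basicOpen_le (m j)) le_rfl]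
    exact IsUnit.map _ (RingedSpace.isUnit_res_basicOpen _ (m j))
  · have hj' := hj.trans (W'.ι.preimage_mono (Y.basicOpen_le (m j)))
    have hl' := hl.trans (W'.ι.preimage_mono (Y.basicOpen_le (m l)))
    have hmjl := congrArg (pl W'.ι (le_inf hj' hl' : W₀ ≤ W'.ι ⁻¹ᵁ (V j ⊓ V l))) (hm j l)
    simp only [map_mul, pl_res] at hmjl
    simp only [res_pl]
    exact hmjl.trans (congrArg (· * _) (Coc.comap_g c W'.ι _ _ _).symm)

omit [IsAlgClosed K] [LocallyOfFiniteType s] in
/-- A class trivial on the geometric generic fibre is trivial over a non-empty open of the base. -/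
theorem exists_open_map_eq_zero (Φ : Pic (pullback s x)) (k' : Type u) [Field k'] [Algebra K k']
    (η : SchemeHomOver (specK K k') s) (hη : genericPoint S ∈ Set.range η.1.base)
    (h0 : Pic.map (fibreMap s x η) Φ = 0) :
    ∃ W : S.Opens, (W : Set S).Nonempty ∧ Pic.map (pullback.fst s x ⁻¹ᵁ W).ι Φ = 0 := by
  set p := pullback.fst s x
  set q := fibreMap s x η
  obtain ⟨c, rfl⟩ := Quotient.exists_rep Φ
  change Pic.map _ (Pic.mk c) = 0 at h0
  rw [Pic.map_mk, Pic.mk_eq_zero_iff] at h0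
  obtain ⟨σ, hσ⟩ := h0
  obtain ⟨z₀, hz₀⟩ := hη
  obtain ⟨_, ⟨S₀, hS₀, rfl⟩, hgen, -⟩ :=
    S.isBasis_affineOpens.exists_subset_of_mem_open (Set.mem_univ (genericPoint S)) isOpen_univ
  have hUT : (⊤ : (Spec (CommRingCat.of k')).Opens) ≤ η.1 ⁻¹ᵁ S₀ := fun z _ => by
    rw [Subsingleton.elim z z₀]
    show η.1.base z₀ ∈ S₀
    rwa [hz₀]
  have : Nonempty S₀ := ⟨⟨_, hgen⟩⟩
  have hflat := flat_appLE_of_genericPoint η.1 hUT hz₀
  have H := isPullback_fibreMap s x η
  -- a finite affine cover of the product over `S₀`, subordinate to the cocycle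
  set O : (pullback s x).Opens := p ⁻¹ᵁ S₀
  have hO : IsCompact (O : Set ↥(pullback s x)) := p.isCompact_preimage hS₀.isCompact
  have hloc : ∀ z : O, ∃ (V : (pullback s x).Opens) (a : c.ι), IsAffineOpen V ∧ z.1 ∈ V ∧
      V ≤ c.U a ⊓ O := by
    intro z
    obtain ⟨a, ha⟩ := Opens.mem_iSup.mp (show z.1 ∈ ⨆ a, c.U a by rw [c.covers]; trivial)
    obtain ⟨_, ⟨V, hV, rfl⟩, hzV, hle⟩ :=
      (pullback s x).isBasis_affineOpens.exists_subset_of_mem_open
      (show z.1 ∈ c.U a ⊓ O from ⟨ha, z.2⟩) (c.U a ⊓ O).isOpen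
    exact ⟨V, a, hV, hzV, hle⟩
  choose V τ hVaff hzV hVle using hloc
  obtain ⟨F, hF⟩ := hO.elim_finite_subcover (fun z => (V z : Set ↥(pullback s x)))
    (fun z => (V z).isOpen)
    fun z hz => Set.mem_iUnion.mpr ⟨⟨z, hz⟩, hzV ⟨z, hz⟩⟩
  have hcov : ∀ z ∈ O, ∃ j : F, z ∈ V j := fun z hz => by
    simpa using hF hz
  -- the trivialisation `xs` of the cocycle `G` on the fibre comes, by flat base change, from a
  -- twisted section `m` over `S₀` with nonzero pull-back
  let xs (j : F) : Γ(pullback (specK K k') x, q ⁻¹ᵁ V j) :=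
    res _ (q.preimage_mono ((hVle j).trans inf_le_left)) (σ (τ j)).val
  let G (j l : F) : Γ(pullback s x, V j ⊓ V l) :=
    res _ (inf_le_inf ((hVle j).trans inf_le_left) ((hVle l).trans inf_le_left))
      (c.g (τ j) (τ l)).val
  have hxs : ∀ j l : F, res _ (inf_le_left : q ⁻¹ᵁ V j ⊓ q ⁻¹ᵁ V l ≤ _) (xs j) =
      pl q (le_refl (q ⁻¹ᵁ V j ⊓ q ⁻¹ᵁ V l)) (G j l) * res _ inf_le_right (xs l) := fun j l => by
    simp only [xs, G, res_res, pl_res]
    refine (hσ (τ j) (τ l) _ _ (inf_le_right.trans (q.preimage_mono ((hVle l).trans inf_le_left)))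
      (inf_le_inf (q.preimage_mono ((hVle j).trans inf_le_left))
        (q.preimage_mono ((hVle l).trans inf_le_left)))).trans ?_
    exact congrArg (· * _) (Coc.comap_g c q (τ j) (τ l) _)
  have hqO : ∀ z', q.base z' ∈ O := fun z' => by
    show p.base (q.base z') ∈ S₀
    rw [← Scheme.Hom.comp_apply, H.w, Scheme.Hom.comp_apply]
    exact hUT trivial
  have : IsIntegral (pullback (specK K k') x) :=
    GeometricallyIntegral.geometrically_isIntegral (f := x) _ _ _
      (IsPullback.of_hasPullback (specK K k') x).flip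
  obtain ⟨m, hm, j₀, hj₀⟩ :=
    exists_section_pullback_ne_zero H hS₀ hUT hflat (fun j : F => V j) (fun j => hVaff j)
    (fun j => (hVle j).trans inf_le_right) G xs hxs (by
      obtain ⟨j, hj⟩ := hcov _ (hqO (genericPoint ↥(pullback (specK K k') x : Scheme.{u})))
      have : Nonempty (q ⁻¹ᵁ V j) := ⟨⟨genericPoint ↥(pullback (specK K k') x : Scheme.{u}), hj⟩⟩
      exact ⟨j, ((σ (τ j)).isUnit.map _).ne_zero⟩)
  -- the quotient of the pull-back of `m` by `xs` is a nonzero function on the proper integral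
  -- fibre, hence a unit; so `m` is a unit along the fibre
  have hmu : ∀ j : F, IsUnit (pl q (le_refl (q ⁻¹ᵁ V j)) (m j)) :=
    isUnit_of_twisted (pullback.fst (specK K k') x) (fun j : F => q ⁻¹ᵁ V j)
      (fun z' => hcov _ (hqO z')) xs _ (fun j => (σ (τ j)).isUnit.map _)
      (fun j l => pl q (le_refl (q ⁻¹ᵁ V j ⊓ q ⁻¹ᵁ V l)) (G j l)) hxs (fun j l => by
        have hmjl := congrArg (pl q (le_refl (q ⁻¹ᵁ V j ⊓ q ⁻¹ᵁ V l))) (hm j l)
        simp only [G, map_mul, pl_res] at hmjl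
        simp only [G, pl_res, res_pl]
        exact hmjl) ⟨j₀, hj₀⟩
  -- so the open `B` where `m` is a unit contains the generic fibre, hence the preimage of an open
  let B : (pullback s x).Opens := ⨆ j : F, (pullback s x).basicOpen (m j)
  have hfibre : ∀ z, p.base z = genericPoint S → z ∈ B := fun z hz => by
    have hzO : z ∈ O := show p.base z ∈ S₀ by rw [hz]; exact hgen
    obtain ⟨j, hj⟩ := hcov z hzO
    obtain ⟨w, hw, -⟩ := Scheme.Pullback.exists_preimage_pullback (f := p) (g := η.1) z z₀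
      (hz.trans hz₀.symm)
    set z' := H.isoPullback.inv.base w
    have hz' : q.base z' = z := by
      rw [← hw, ← Scheme.Hom.comp_apply, H.isoPullback_inv_fst]
    have hmz : z' ∈ (pullback (specK K k') x).basicOpen (pl q (le_refl (q ⁻¹ᵁ V j)) (m j)) := by
      rw [Scheme.basicOpen_of_isUnit _ (hmu j)]
      show q.base z' ∈ V j
      rwa [hz']
    rw [Scheme.basicOpen_appLE] at hmz
    exact Opens.mem_iSup.mpr ⟨j, hz' ▸ hmz.2⟩
  obtain ⟨W, hgenW, hWB⟩ := exists_open_preimage_le s x B hfibre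
  refine ⟨W, ⟨_, hgenW⟩, ?_⟩
  -- and there `m` trivialises the cocycle
  exact map_ι_eq_zero_of_sections c (fun j : F => V j) (fun j => τ j)
    (fun j => (hVle j).trans inf_le_left) m hm _ hWB

/-! ### Gluing along a constant section -/

omit [IsIntegral S] [LocallyOfFiniteType s] in
/-- Over an affine open of the base a function on the product which is `1` along a constant section
is `1`. -/
theorem eq_one_of_constSection (e : SchemeHomOver (𝟙 (Spec (CommRingCat.of K))) x) {B : S.Opens}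
    (hB : IsAffineOpen B) (h : Γ(pullback s x, pullback.fst s x ⁻¹ᵁ B))
    (hle : B ≤ constSection s x e ⁻¹ᵁ (pullback.fst s x ⁻¹ᵁ B))
    (he : pl (constSection s x e) hle h = 1) : h = 1 := by
  have : IsIntegral X := GeometricallyIntegral.isIntegral_of_subsingleton x
  have hcpt : CompactSpace X := (quasiCompact_iff_compactSpace x).mp inferInstance
  have hqs : IsQuasiSeparated (α := X) (⊤ : X.Opens) :=
    x.isQuasiSeparated_preimage (isAffineOpen_top (Spec (CommRingCat.of K))).isQuasiSeparated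
  have hp := (isIso_pushoutSection_iff (IsPullback.of_hasPullback s x).flip (US := ⊤) (UT := B)
    (UX := ⊤)
    (UY := pullback.fst s x ⁻¹ᵁ B) le_top le_top (by simp)).mp
    (isIso_pushoutSection_of_isQuasiSeparated_of_flat_right _ le_top le_top
      (by simp) (isAffineOpen_top _) hB
      (by simpa using isCompact_univ) hqs)
  have : IsIso (x.appLE ⊤ ⊤ le_top) := by
    rw [ConcreteCategory.isIso_iff_bijective]
    have : x.appLE ⊤ ⊤ le_top = x.appTop := by
      rw [Scheme.Hom.appLE, Scheme.Hom.appTop]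
      simp
    rw [this]
    exact appTop_bijective x
  have := hp.isIso_inr_of_isIso
  obtain ⟨b, rfl⟩ := (ConcreteCategory.bijective_of_isIso
    ((pullback.fst s x).appLE B (pullback.fst s x ⁻¹ᵁ B) le_rfl)).2 h
  have hb : b = 1 := by
    rw [← he, pl_pl (pullback.fst s x) (constSection s x e) le_rfl hle
      (by rw [constSection_fst]; exact le_rfl)]
    rw [pl_congr (constSection_fst s x e), pl_id]
    exact (res_self _ _).symm
  rw [hb, map_one]

omit [IsIntegral S] [LocallyOfFiniteType s] in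
/-- Two trivialisations of a cocycle over an affine open of the base which agree along the constant
section are equal. -/
private theorem trivialisation_ext (e : SchemeHomOver (𝟙 (Spec (CommRingCat.of K))) x)
    (c : Coc (pullback s x)) {B : S.Opens} (hB : IsAffineOpen B)
    (hEB : B ≤ constSection s x e ⁻¹ᵁ (pullback.fst s x ⁻¹ᵁ B))
    (t₁ t₂ : ∀ k, Γ(pullback s x, c.U k ⊓ pullback.fst s x ⁻¹ᵁ B)) (hu : ∀ k, IsUnit (t₂ k))
    (h₁ : ∀ (k k' : c.ι) (W₀ : (pullback s x).Opens) (hk : W₀ ≤ c.U k ⊓ pullback.fst s x ⁻¹ᵁ B)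
      (hk' : W₀ ≤ c.U k' ⊓ pullback.fst s x ⁻¹ᵁ B), res _ hk (t₁ k) =
        res _ (le_inf (hk.trans inf_le_left) (hk'.trans inf_le_left)) (c.g k k').val *
          res _ hk' (t₁ k'))
    (h₂ : ∀ (k k' : c.ι) (W₀ : (pullback s x).Opens) (hk : W₀ ≤ c.U k ⊓ pullback.fst s x ⁻¹ᵁ B)
      (hk' : W₀ ≤ c.U k' ⊓ pullback.fst s x ⁻¹ᵁ B), res _ hk (t₂ k) =
        res _ (le_inf (hk.trans inf_le_left) (hk'.trans inf_le_left)) (c.g k k').val *
          res _ hk' (t₂ k'))
    (hE : ∀ (k : c.ι) (W₀ : S.Opens)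
      (h : W₀ ≤ constSection s x e ⁻¹ᵁ (c.U k ⊓ pullback.fst s x ⁻¹ᵁ B)),
      pl (constSection s x e) h (t₁ k) = pl (constSection s x e) h (t₂ k)) (k : c.ι) :
    t₁ k = t₂ k := by
  obtain ⟨φ, hφ⟩ := exists_res_glue (W := pullback.fst s x ⁻¹ᵁ B)
    (fun k => c.U k ⊓ pullback.fst s x ⁻¹ᵁ B) (fun k => inf_le_right)
    (fun w hw => by
      obtain ⟨k, hk⟩ := Opens.mem_iSup.mp (show w ∈ ⨆ i, c.U i by rw [c.covers]; trivial)
      exact Opens.mem_iSup.mpr ⟨k, hk, hw⟩)
    (fun k => t₁ k * ((hu k).unit⁻¹ : Γ(pullback s x, c.U k ⊓ pullback.fst s x ⁻¹ᵁ B)ˣ))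
        (fun k k' => by
      refine ratio_eq _ _ (hu k) (hu k') (res _ (inf_le_inf inf_le_left inf_le_left) (c.g k k').val)
        (h₁ k k' _ inf_le_left inf_le_right) (h₂ k k' _ inf_le_left inf_le_right))
  have hφ1 : φ = 1 := eq_one_of_constSection s x e (hB) φ hEB (by
    refine res_ext (fun k => B ⊓ (constSection s x e) ⁻¹ᵁ c.U k) (fun k => inf_le_left)
      (fun w hw => by
        obtain ⟨k, hk⟩ := Opens.mem_iSup.mp (show (constSection s x e).base w ∈ ⨆ i, c.U i by
          rw [c.covers]; trivial)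
        exact Opens.mem_iSup.mpr ⟨k, hw, hk⟩) _ _ fun k => ?_
    have hle : B ⊓ (constSection s x e) ⁻¹ᵁ c.U k ≤
        (constSection s x e) ⁻¹ᵁ (c.U k ⊓ pullback.fst s x ⁻¹ᵁ B) :=
      le_inf inf_le_right (inf_le_left.trans hEB)
    rw [map_one, res_pl, ← pl_res (constSection s x e) inf_le_right hle, hφ, map_mul]
    refine ((hu k).map (pl (constSection s x e) hle)).mul_left_inj.mp ?_
    rw [mul_assoc, ← map_mul, IsUnit.val_inv_mul, map_one, mul_one, one_mul]
    exact hE k _ hle)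
  have := hφ k
  rw [hφ1, map_one, eq_comm, Units.mul_inv_eq_one, IsUnit.unit_spec] at this
  exact this

omit [IsIntegral S] [LocallyOfFiniteType s] in
/-- Trivialisations of a cocycle around the points of the base which agree with `v` along the
constant section agree with each other over affine opens, so they glue. -/
private theorem mk_eq_zero_of_trivialisations (e : SchemeHomOver (𝟙 (Spec (CommRingCat.of K))) x)
    (c : Coc (pullback s x)) (B : S → S.Opens) (hzB : ∀ z, z ∈ B z)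
    (hEB : ∀ B : S.Opens, B ≤ constSection s x e ⁻¹ᵁ (pullback.fst s x ⁻¹ᵁ B))
    (v : ∀ i, Γ(S, constSection s x e ⁻¹ᵁ c.U i))
    (t' : ∀ (z : S) i, Γ(pullback s x, c.U i ⊓ pullback.fst s x ⁻¹ᵁ B z))
    (ht'u : ∀ z i, IsUnit (t' z i))
    (ht'g : ∀ (z : S) (i l : c.ι) (W₀ : (pullback s x).Opens)
      (hi : W₀ ≤ c.U i ⊓ pullback.fst s x ⁻¹ᵁ B z) (hl : W₀ ≤ c.U l ⊓ pullback.fst s x ⁻¹ᵁ B z),
      res _ hi (t' z i) = res _ (le_inf (hi.trans inf_le_left) (hl.trans inf_le_left))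
        (c.g i l).val * res _ hl (t' z l))
    (ht'E : ∀ (z : S) (i : c.ι) (W₀ : S.Opens)
      (hi : W₀ ≤ constSection s x e ⁻¹ᵁ (c.U i ⊓ pullback.fst s x ⁻¹ᵁ B z))
      (hi' : W₀ ≤ constSection s x e ⁻¹ᵁ c.U i),
      pl (constSection s x e) hi (t' z i) = res S hi' (v i)) :
    Pic.mk c = 0 := by
  refine Coc.mk_eq_zero_of_local c (fun j : S × c.ι => c.U j.2 ⊓ pullback.fst s x ⁻¹ᵁ B j.1)
    (fun j => j.2)
    (fun j => inf_le_left)
    (eq_top_iff.mpr fun y _ => ?_) (fun j => t' j.1 j.2) (fun j => ht'u _ _) fun j l W₀ hj hl => ?_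
  · obtain ⟨i, hi⟩ := Opens.mem_iSup.mp (show y ∈ ⨆ i, c.U i by rw [c.covers]; trivial)
    exact Opens.mem_iSup.mpr ⟨⟨(pullback.fst s x).base y, i⟩, hi, hzB _⟩
  · obtain ⟨z, i⟩ := j
    obtain ⟨z', i'⟩ := l
    have hz : ∀ y : ↥(B z ⊓ B z'), ∃ B' : S.Opens, IsAffineOpen B' ∧ y.1 ∈ B' ∧
        B' ≤ B z ⊓ B z' := fun y => by
      obtain ⟨_, ⟨B', hB', rfl⟩, hy, hle⟩ :=
        S.isBasis_affineOpens.exists_subset_of_mem_open y.2 (B z ⊓ B z').isOpen
      exact ⟨B', hB', hy, hle⟩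
    choose B' hB' hyB' hB'le using hz
    refine res_ext (fun y => W₀ ⊓ pullback.fst s x ⁻¹ᵁ B' y) (fun y => inf_le_left)
      (fun w hw => Opens.mem_iSup.mpr
        ⟨⟨(pullback.fst s x).base w, (hj hw).2, (hl hw).2⟩, hw, hyB' _⟩) _ _
        fun y => ?_
    have hagree : ∀ (k : c.ι)
        (hk : c.U k ⊓ pullback.fst s x ⁻¹ᵁ B' y ≤ c.U k ⊓ pullback.fst s x ⁻¹ᵁ B z)
        (hk' : c.U k ⊓ pullback.fst s x ⁻¹ᵁ B' y ≤ c.U k ⊓ pullback.fst s x ⁻¹ᵁ B z'),
            res _ hk (t' z k) = res _ hk' (t' z' k) := by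
      intro k hk hk'
      have h₁ : ∀ k, c.U k ⊓ pullback.fst s x ⁻¹ᵁ B' y ≤ c.U k ⊓ pullback.fst s x ⁻¹ᵁ B z :=
        fun k => inf_le_inf le_rfl ((pullback.fst s x).preimage_mono ((hB'le y).trans inf_le_left))
      have h₂ : ∀ k, c.U k ⊓ pullback.fst s x ⁻¹ᵁ B' y ≤ c.U k ⊓ pullback.fst s x ⁻¹ᵁ B z' :=
        fun k => inf_le_inf le_rfl ((pullback.fst s x).preimage_mono ((hB'le y).trans inf_le_right))
      refine trivialisation_ext s x e c (hB' y) (hEB _) (fun k => res _ (h₁ k) (t' z k))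
        (fun k => res _ (h₂ k) (t' z' k)) (fun k => (ht'u _ _).map _) (fun k k' W₁ hk hk' => ?_)
        (fun k k' W₁ hk hk' => ?_) (fun k W₁ h => ?_) k
      · simp only [res_res]
        exact ht'g z k k' _ _ _
      · simp only [res_res]
        exact ht'g z' k k' _ _ _
      · rw [pl_res, pl_res, ht'E z k _ _ (h.trans ((constSection s x e).preimage_mono inf_le_left)),
          ht'E z' k _ _ (h.trans ((constSection s x e).preimage_mono inf_le_left))]
    have hy₁ : W₀ ⊓ pullback.fst s x ⁻¹ᵁ B' y ≤ c.U i' ⊓ pullback.fst s x ⁻¹ᵁ B' y :=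
      inf_le_inf (hl.trans inf_le_left) le_rfl
    have hz₁ := inf_le_inf (le_refl (c.U i'))
      ((pullback.fst s x).preimage_mono ((hB'le y).trans inf_le_left))
    have hz₂ := inf_le_inf (le_refl (c.U i'))
      ((pullback.fst s x).preimage_mono ((hB'le y).trans inf_le_right))
    have h₁ := ht'g z i i' _ (inf_le_left.trans hj) (hy₁.trans hz₁)
    have h₂ := congrArg (res _ hy₁) (hagree i' hz₁ hz₂)
    rw [res_res, res_res] at h₂
    refine (res_res _ _ _).trans ?_
    refine Eq.trans ?_ (map_mul _ _ _).symm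
    refine Eq.trans ?_ (congrArg₂ (· * ·) (res_res _ _ _).symm (res_res _ _ _).symm)
    exact h₁.trans (congrArg _ h₂)

omit [IsIntegral S] [LocallyOfFiniteType s] in
/-- A class trivial locally on the base and along a constant section is trivial. -/
theorem eq_zero_of_locally (e : SchemeHomOver (𝟙 (Spec (CommRingCat.of K))) x)
    (Φ : Pic (pullback s x)) {ι : Type u} (W : ι → S.Opens) (hW : (⨆ a, W a) = ⊤)
    (h : ∀ a, Pic.map (pullback.fst s x ⁻¹ᵁ W a).ι Φ = 0)
    (he : Pic.map (constSection s x e) Φ = 0) :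
    Φ = 0 := by
  set p := pullback.fst s x
  set E := constSection s x e
  obtain ⟨c, rfl⟩ := Quotient.exists_rep Φ
  change Pic.map _ (Pic.mk c) = 0 at he
  rw [Pic.map_mk, Pic.mk_eq_zero_iff] at he
  obtain ⟨v, hv⟩ := he
  have hEp : ∀ y, p.base (E.base y) = y := fun y => by
    rw [← Scheme.Hom.comp_apply, constSection_fst]
    rfl
  have hEB : ∀ B : S.Opens, B ≤ E ⁻¹ᵁ (p ⁻¹ᵁ B) :=
    fun B y hy => show p.base (E.base y) ∈ B by rwa [hEp]
  -- around each `z` an affine `B z` inside some `W a`, its section inside one chart `U (iz z)`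
  have hloc : ∀ z : S, ∃ (a : ι) (i : c.ι) (B : S.Opens), IsAffineOpen B ∧ z ∈ B ∧
      B ≤ W a ⊓ E ⁻¹ᵁ c.U i := by
    intro z
    obtain ⟨a, ha⟩ := Opens.mem_iSup.mp (show z ∈ ⨆ a, W a by rw [hW]; trivial)
    obtain ⟨i, hi⟩ := Opens.mem_iSup.mp (show E.base z ∈ ⨆ i, c.U i by rw [c.covers]; trivial)
    obtain ⟨_, ⟨B, hB, rfl⟩, hzB, hle⟩ := S.isBasis_affineOpens.exists_subset_of_mem_open
      (show z ∈ W a ⊓ E ⁻¹ᵁ c.U i from ⟨ha, hi⟩) (W a ⊓ E ⁻¹ᵁ c.U i).isOpen
    exact ⟨a, i, B, hB, hzB, hle⟩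
  choose az iz B hB hzB hBle using hloc
  choose t htu ht using fun a => c.exists_units_of_map_ι_eq_zero (p ⁻¹ᵁ W a) (h a)
  -- `T₀ z` trivialises the cocycle over `B z`; times a function `r z` of the base it becomes the
  -- trivialisation `t' z` agreeing with the given one `v` along the section
  let T₀ (z : S) (i : c.ι) : Γ(pullback s x, c.U i ⊓ p ⁻¹ᵁ B z) :=
    res _ (inf_le_inf le_rfl (p.preimage_mono ((hBle z).trans inf_le_left))) (t (az z) i)
  have hT₀u : ∀ z i, IsUnit (T₀ z i) := fun z i => (htu _ i).map _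
  have hEle : ∀ z, B z ≤ E ⁻¹ᵁ (c.U (iz z) ⊓ p ⁻¹ᵁ B z) := fun z =>
    le_inf ((hBle z).trans inf_le_right) (hEB _)
  have hru : ∀ z, IsUnit (pl E (hEle z) (T₀ z (iz z))) := fun z => (hT₀u _ _).map _
  let r (z : S) : Γ(S, B z) := res S ((hBle z).trans inf_le_right) (v (iz z)).val *
    ((hru z).unit⁻¹ : Γ(S, B z)ˣ)
  let t' (z : S) (i : c.ι) : Γ(pullback s x, c.U i ⊓ p ⁻¹ᵁ B z) := T₀ z i * pl p inf_le_right (r z)
  have ht'u : ∀ z i, IsUnit (t' z i) := fun z i =>
    (hT₀u z i).mul ((((v (iz z)).isUnit.map _).mul (Units.isUnit _)).map _)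
  have ht'g : ∀ (z : S) (i l : c.ι) (W₀ : (pullback s x).Opens) (hi : W₀ ≤ c.U i ⊓ p ⁻¹ᵁ B z)
      (hl : W₀ ≤ c.U l ⊓ p ⁻¹ᵁ B z), res _ hi (t' z i) =
        res _ (le_inf (hi.trans inf_le_left) (hl.trans inf_le_left)) (c.g i l).val *
            res _ hl (t' z l) :=
    fun z i l W₀ hi hl => by
    simp only [t', T₀, map_mul, res_res, res_pl, ← mul_assoc]
    rw [ht (az z) i l W₀ _
      (hl.trans (inf_le_inf le_rfl (p.preimage_mono ((hBle z).trans inf_le_left))))]
  have ht'E : ∀ (z : S) (i : c.ι) (W₀ : S.Opens) (hi : W₀ ≤ E ⁻¹ᵁ (c.U i ⊓ p ⁻¹ᵁ B z))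
      (hi' : W₀ ≤ E ⁻¹ᵁ c.U i),
      pl E hi (t' z i) = res S hi' (v i).val := fun z i W₀ hi hi' => by
    have hW₀ : W₀ ≤ B z := fun y hy => by
      have := (hi hy).2
      simpa [hEp] using this
    have hscalar : pl E hi (pl p inf_le_right (r z)) = res S hW₀ (r z) := by
      rw [pl_pl p E _ _ (by rw [constSection_fst]; exact hW₀),
        pl_congr (constSection_fst s x e), pl_id]
      rfl
    have hl : W₀ ≤ E ⁻¹ᵁ (c.U (iz z) ⊓ p ⁻¹ᵁ B z) := hW₀.trans (hEle z)
    have hchange : pl E hi (T₀ z i) = pl E (le_inf hi' (hW₀.trans ((hBle z).trans inf_le_right)) :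
        W₀ ≤ E ⁻¹ᵁ (c.U i ⊓ c.U (iz z))) (c.g i (iz z)).val * pl E hl (T₀ z (iz z)) := by
      have h := ht (az z) i (iz z) ((c.U i ⊓ c.U (iz z)) ⊓ p ⁻¹ᵁ B z)
        (le_inf (inf_le_left.trans inf_le_left)
          (inf_le_right.trans (p.preimage_mono ((hBle z).trans inf_le_left))))
        (le_inf (inf_le_left.trans inf_le_right)
          (inf_le_right.trans (p.preimage_mono ((hBle z).trans inf_le_left))))
      have := congrArg (pl E (le_inf (le_inf hi' (hW₀.trans ((hBle z).trans inf_le_right)))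
        (hW₀.trans (hEB _)) : W₀ ≤ E ⁻¹ᵁ ((c.U i ⊓ c.U (iz z)) ⊓ p ⁻¹ᵁ B z))) h
      simp only [map_mul, pl_res] at this
      simp only [T₀, pl_res]
      exact this
    have hrestrict : pl E hl (T₀ z (iz z)) = res S hW₀ (pl E (hEle z) (T₀ z (iz z))) :=
      (res_pl E _ hW₀ _).symm
    rw [map_mul, hscalar, hchange, hrestrict]
    simp only [r, map_mul, res_res]
    rw [mul_assoc, mul_left_comm (res S hW₀ (pl E (hEle z) _)), ← map_mul (res S hW₀),
      IsUnit.mul_val_inv, map_one, mul_one]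
    exact ((hv i (iz z) W₀ hi' (hW₀.trans ((hBle z).trans inf_le_right))
      (le_inf hi' (hW₀.trans ((hBle z).trans inf_le_right)))).trans
      (congrArg (· * _) (Coc.comap_g c E i (iz z) _))).symm
  -- these trivialisations glue: two of them agree along the section, hence over each affine open
  -- inside `B z ⊓ B z'`
  exact mk_eq_zero_of_trivialisations s x e c B hzB hEB (fun i => (v i).val) t' ht'u ht'g ht'E

end Fermat.Agent.AbVar

end
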