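import Fermat.Agent.AbVar.Curve
import Fermat.Agent.AbVar.Spread
import Fermat.Agent.AbVar.Group

/-!
# The theorem of the cube for abelian varieties

For a class `L` the cube class `theta L x y z` is the alternating sum of `L` pulled back by the sums
of `x`, `y`, `z`. The geometric generic point of `V` lies on a smooth proper curve with a rational
point `y₀`, so by rigidity along the curve its slice is that of `y₀` (`slice_eq_of_onCurve`); this
spreads to a non-empty open `W` (`exists_open_cubeAt_eq`). As every rational point is a difference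
of two in `W`, all `cubeAt L a` vanish (`cubeAt_eq_zero`), so the class is invariant under
translation, and the translates of `W` cover `V` (`univCube_eq_zero`, `theta_eq_zero`).
-/

set_option autoImplicit false

universe u

noncomputable section

open CategoryTheory CategoryTheory.Limits AlgebraicGeometry NeronModelInfra

namespace Fermat.Agent.AbVar.AV

variable {K : Type u} [Field K] {V : AV K}

theorem idPt_hom (V : AV K) : V.idPt.hom = 𝟙 V.A := rfl

theorem pr₁_hom (V : AV K) : V.pr₁.hom = pullback.fst V.f V.f := rfl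

theorem pr₂_hom (V : AV K) : V.pr₂.hom = pullback.snd V.f V.f := rfl

theorem Pt.comap_const {T T' : Scheme.{u}} (t : T ⟶ Spec (CommRingCat.of K))
    (t' : T' ⟶ Spec (CommRingCat.of K)) (ψ : T' ⟶ T) (hψ : ψ ≫ t = t') (a : V.K_Points) :
    (Pt.const t a).comap t' ψ hψ = Pt.const t' a :=
  Pt.ext (by simp [Pt.const, ← Category.assoc, hψ])

theorem Pt.const_add {T : Scheme.{u}} (t : T ⟶ Spec (CommRingCat.of K)) (a b : V.K_Points) :
    Pt.const t (a + b) = Pt.const t a + Pt.const t b :=
  Pt.comap_add t t (Category.comp_id t) a b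

theorem Pt.hom_add_const {T : Scheme.{u}} {t : T ⟶ Spec (CommRingCat.of K)} (x : V.Pt t)
    (a : V.K_Points) :
    (x + Pt.const t a).hom = x.hom ≫ translate V.G a :=
  (comp_translate V.G t x a).symm

theorem Pt.const_zero {T : Scheme.{u}} (t : T ⟶ Spec (CommRingCat.of K)) :
    Pt.const t (0 : V.K_Points) = 0 :=
  Pt.comap_zero t t (Category.comp_id t)

variable {T : Scheme.{u}} {t : T ⟶ Spec (CommRingCat.of K)} (L : Pic V.A)

theorem pb_const (a : V.K_Points) : pb L (Pt.const t a) = 0 := by
  rw [Pt.const, pb_comap, (Pic.subsingleton_spec_field K).elim (pb L a) 0, map_zero]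

/-- The cube class with the first variable at a rational point, on the square. -/
def cubeAt (a : V.K_Points) : Pic (pullback V.f V.f) :=
  theta L (Pt.const V.sqStr a) V.pr₁ V.pr₂

/-- A cube class with constant first variable is pulled back from `cubeAt`. -/
theorem theta_const_eq (a : V.K_Points) (y z : V.Pt t) :
    theta L (Pt.const t a) y z =
      Pic.map (pullback.lift y.hom z.hom (y.hom_over.trans z.hom_over.symm)) (cubeAt L a) := by
  rw [cubeAt, ← theta_comap L t (pullback.lift y.hom z.hom (y.hom_over.trans z.hom_over.symm))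
    (by rw [sqStr, pullback.lift_fst_assoc, Pt.hom_over]), Pt.comap_const]
  congr 1 <;> exact Pt.ext
    (by simp only [Pt.comap_hom, pr₁_hom, pr₂_hom, pullback.lift_fst, pullback.lift_snd])

/-- If two translations have the same cube class, that of their difference vanishes. -/
theorem cubeAt_sub_eq_zero {u v : V.K_Points} (h : cubeAt L u = cubeAt L v) :
    cubeAt L (u - v) = 0 := by
  obtain ⟨w, rfl⟩ : ∃ w, u = v + w := ⟨u - v, (add_sub_cancel v u).symm⟩
  rw [add_sub_cancel_left]
  have hh : ∀ y z : V.Pt V.sqStr,
      theta L (Pt.const V.sqStr (v + w)) y z = theta L (Pt.const V.sqStr v) y z := fun y z => by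
    rw [theta_const_eq, theta_const_eq, h]
  have h1 := hh (V.pr₁ - Pt.const V.sqStr v) V.pr₂
  have h2 := hh (-Pt.const V.sqStr v) V.pr₂
  simp only [theta, Pt.const_add] at h1 h2
  unfold cubeAt theta
  have hw := pb_const (t := V.sqStr) L w
  have hv := pb_const (t := V.sqStr) L v
  have hvw := pb_const (t := V.sqStr) L (v + w)
  have h0 := pb_zero (t := V.sqStr) L
  rw [Pt.const_add] at hvw
  generalize Pt.const V.sqStr v = c at *
  generalize Pt.const V.sqStr w = d at *
  generalize V.pr₁ = y at *
  generalize V.pr₂ = z at *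
  rw [show c + d + (y - c) + z = d + y + z by abel, show c + d + (y - c) = d + y by abel,
    show c + (y - c) + z = y + z by abel, show c + (y - c) = y by abel, hvw, hv] at h1
  rw [show c + d + -c + z = d + z by abel, show c + d + -c = d by abel,
    show c + -c + z = z by abel, show c + -c = 0 by abel, hvw, hv, hw, h0] at h2
  rw [hw]
  linear_combination (norm := abel) h1 - h2

/-- If the cube classes at rational points vanish, the class is invariant under translation. -/
theorem theta_add_const (h : ∀ a : V.K_Points, cubeAt L a = 0) (a : V.K_Points) (x y z : V.Pt t) :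
    theta L (x + Pt.const t a) y z = theta L x y z := by
  have hh : ∀ y z : V.Pt t, theta L (Pt.const t a) y z = 0 := fun y z => by
    rw [theta_const_eq, h, map_zero]
  have h1 := hh (x + y) z
  have h3 := hh x z
  simp only [theta, pb_const] at h1 h3 ⊢
  rw [← sub_eq_zero]
  generalize Pt.const t a = c at *
  simp only [← add_assoc] at h1 h3
  rw [add_comm x c]
  linear_combination (norm := abel) h1 - h3

variable (V)

/-- The cube on the product. -/
abbrev cubeStr : pullback V.f V.sqStr ⟶ Spec (CommRingCat.of K) := pullback.fst V.f V.sqStr ≫ V.f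

/-- The universal cube class. -/
def univCube : Pic (pullback V.f V.sqStr) :=
  theta L (V.idPt.comap V.cubeStr (pullback.fst _ _) rfl)
    (V.pr₁.comap V.cubeStr (pullback.snd _ _) pullback.condition.symm)
    (V.pr₂.comap V.cubeStr (pullback.snd _ _) pullback.condition.symm)

/-- Every cube class is pulled back from the universal one. -/
theorem theta_eq_map_univCube (x y z : V.Pt t) :
    theta L x y z = Pic.map (pullback.lift x.hom (pullback.lift y.hom z.hom
      (y.hom_over.trans z.hom_over.symm))
        (by rw [sqStr, pullback.lift_fst_assoc, Pt.hom_over, Pt.hom_over]))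
        (V.univCube L) := by
  rw [univCube, ← theta_comap L t _ (by rw [cubeStr, pullback.lift_fst_assoc, Pt.hom_over])]
  congr 1 <;> exact Pt.ext
    (by simp only [Pt.comap_hom, idPt_hom, pr₁_hom, pr₂_hom, pullback.lift_fst,
    pullback.lift_snd, pullback.lift_snd_assoc, Category.comp_id])

variable [IsAlgClosed K]

/-- On a non-empty open of the first variable the cube class is that at a rational point `y₀`. -/
theorem exists_open_cubeAt_eq :
    ∃ (W : V.A.Opens) (y₀ : V.K_Points), (W : Set V.A).Nonempty ∧
      ∀ {T : Scheme.{u}} {t : T ⟶ Spec (CommRingCat.of K)} (x y z : V.Pt t),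
        Set.range x.hom.base ⊆ W → theta L x y z = theta L (Pt.const t y₀) y z := by
  -- Let `η` be the geometric generic point; a rational point `y₀` lies on a curve through it.
  let k' : Type u := AlgebraicClosure V.A.functionField
  let η₀ : Spec (CommRingCat.of k') ⟶ V.A :=
    Spec.map (CommRingCat.ofHom (algebraMap V.A.functionField k')) ≫
      V.A.fromSpecStalk (genericPoint V.A)
  let : Algebra K k' := (Spec.preimage (η₀ ≫ V.f)).hom.toAlgebra
  let η : V.Pt (specK K k') := ⟨η₀, (Spec.map_preimage (η₀ ≫ V.f)).symm⟩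
  obtain ⟨y₀, hy₀⟩ := exists_rational_onCurve η
  have hs : V.slice L η = V.slice L (y₀.comap (specK K k') (specK K k') (Category.comp_id _)) :=
    slice_eq_of_onCurve L hy₀
  have := V.geometricallyIntegral_sqStr
  -- The difference `Φ` of the universal cube and the cube at `y₀` dies on the fibre over `η`.
  let Φ : Pic (pullback V.f V.sqStr) :=
    V.univCube L - Pic.map (pullback.snd V.f V.sqStr) (cubeAt L y₀)
  have hη : genericPoint V.A ∈ Set.range η₀.base := by
    refine ⟨IsLocalRing.closedPoint k', ?_⟩
    simp only [η₀, Scheme.Hom.comp_apply]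
    have : Subsingleton ↥(Spec (V.A.presheaf.stalk (genericPoint V.A))) :=
      inferInstanceAs (Subsingleton (PrimeSpectrum V.A.functionField))
    rw [Subsingleton.elim ((Spec.map _) _)
      (IsLocalRing.closedPoint (V.A.presheaf.stalk (genericPoint V.A)))]
    exact Scheme.fromSpecStalk_closedPoint
  have h0 : Pic.map (fibreMap V.f V.sqStr η) Φ = 0 := by
    rw [map_sub, sub_eq_zero]
    refine Eq.trans ?_ (hs.trans ?_)
    · rw [univCube, ← theta_comap L (V.sqStrExt k') (fibreMap V.f V.sqStr η)
        (by rw [fibreMap, pullback.map, cubeStr, pullback.lift_fst_assoc, Category.assoc,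
          η.2]), slice]
      congr 1 <;> exact Pt.ext
        (by simp only [Pt.comap_hom, fibreMap, pullback.map, idPt_hom, pr₁_hom, pr₂_hom,
        pullback.lift_fst, pullback.lift_snd_assoc, Category.comp_id] <;> rfl)
    · rw [← Pic.map_comp, cubeAt, ← theta_comap L (V.sqStrExt k') _
        (by rw [fibreMap, pullback.map, pullback.lift_snd, Category.comp_id];
            exact pullback.condition.symm), slice]
      congr 1 <;> exact Pt.ext
        (by simp only [Pt.comap_hom, Pt.const, fibreMap, pullback.map, pullback.lift_snd,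
        Category.comp_id, Category.assoc, pullback.condition_assoc])
  -- So `Φ` vanishes over a non-empty open `W`; pull this back along `(x, y, z)`.
  obtain ⟨W, hW, hΦ⟩ := exists_open_map_eq_zero V.f V.sqStr Φ k' η hη h0
  refine ⟨W, y₀, hW, fun {T t} x y z hx => ?_⟩
  rw [V.theta_eq_map_univCube L x y z, theta_const_eq, ← sub_eq_zero]
  generalize hm : (pullback.lift x.hom
    (pullback.lift y.hom z.hom (y.hom_over.trans z.hom_over.symm))
    (by rw [sqStr, pullback.lift_fst_assoc, Pt.hom_over, Pt.hom_over]) :
      T ⟶ pullback V.f V.sqStr) = m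
  have hm₁ : m ≫ pullback.fst _ _ = x.hom := by rw [← hm, pullback.lift_fst]
  have hm₂ : m ≫ pullback.snd _ _ =
      pullback.lift y.hom z.hom (y.hom_over.trans z.hom_over.symm) := by
    rw [← hm, pullback.lift_snd]
  rw [← hm₂, Pic.map_comp, ← map_sub]
  have hr : Set.range m.base ⊆ Set.range (pullback.fst V.f V.sqStr ⁻¹ᵁ W).ι.base := by
    rw [Scheme.Opens.range_ι]
    rintro _ ⟨p, rfl⟩
    change (pullback.fst V.f V.sqStr).base (m.base p) ∈ W
    rw [← Scheme.Hom.comp_apply, hm₁]
    exact hx ⟨p, rfl⟩
  rw [← IsOpenImmersion.lift_fac _ m hr, Pic.map_comp]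
  exact (congrArg _ hΦ).trans (map_zero _)

/-- The cube classes at rational points vanish. -/
theorem cubeAt_eq_zero (a : V.K_Points) : cubeAt L a = 0 := by
  obtain ⟨W, y₀, hW, hy⟩ := exists_open_cubeAt_eq V L
  obtain ⟨u, v, hu, hv, rfl⟩ := V.exists_sub_eq W hW a
  refine cubeAt_sub_eq_zero L ?_
  have key : ∀ x : V.K_Points, Set.range x.hom.base ⊆ W → cubeAt L x = cubeAt L y₀ := fun x hx => by
    refine hy (Pt.const V.sqStr x) V.pr₁ V.pr₂ ?_
    rw [Pt.const, Pt.comap_hom]
    rintro _ ⟨p, rfl⟩
    rw [Scheme.Hom.comp_apply]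
    exact hx ⟨_, rfl⟩
  rw [key u hu, key v hv]

/-- The universal cube class vanishes. -/
theorem univCube_eq_zero : V.univCube L = 0 := by
  obtain ⟨W, y₀, hW, hy⟩ := exists_open_cubeAt_eq V L
  have := V.geometricallyIntegral_sqStr
  let e : SchemeHomOver (𝟙 (Spec (CommRingCat.of K))) V.sqStr :=
    ⟨pullback.lift (0 : V.K_Points).hom (0 : V.K_Points).hom rfl,
      by rw [sqStr, pullback.lift_fst_assoc, Pt.hom_over]⟩
  refine eq_zero_of_locally V.f V.sqStr e _ (fun a : V.K_Points => (translate V.G a) ⁻¹ᵁ W) ?_
    (fun a => ?_) ?_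
  · rw [eq_top_iff]
    intro x _
    obtain ⟨a, ha⟩ := V.exists_translate_mem W hW x
    exact TopologicalSpace.Opens.mem_iSup.mpr ⟨a, ha⟩
  · rw [univCube, ← theta_comap L _ _ rfl, ← theta_add_const L (cubeAt_eq_zero V L) a]
    refine (hy _ _ _ ?_).trans ?_
    · rintro _ ⟨p, rfl⟩
      have hp : p.1 ∈ pullback.fst V.f V.sqStr ⁻¹ᵁ (translate V.G a ⁻¹ᵁ W) := p.2
      rw [Pt.hom_add_const, Pt.comap_hom, Pt.comap_hom, idPt_hom, Category.comp_id, Category.assoc,
        Scheme.Hom.comp_apply]
      exact hp
    · rw [theta_const_eq, cubeAt_eq_zero, map_zero]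
  · rw [univCube, ← theta_comap L V.f (constSection V.f V.sqStr e)
      (by rw [constSection, cubeStr, pullback.lift_fst_assoc, Category.id_comp])]
    have h0 : ∀ q : V.Pt V.sqStr, q = V.pr₁ ∨ q = V.pr₂ →
        (q.comap V.cubeStr (pullback.snd _ _) pullback.condition.symm).comap V.f
          (constSection V.f V.sqStr e)
            (by rw [constSection, cubeStr, pullback.lift_fst_assoc, Category.id_comp]) =
              0 := by
      intro q hq
      rw [← Pt.const_zero (V := V) V.f]
      apply Pt.ext
      rcases hq with rfl | rfl <;> simp only [Pt.comap_hom, constSection, Pt.const, pr₁_hom,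
        pr₂_hom, e, pullback.lift_fst, pullback.lift_snd, pullback.lift_snd_assoc, Category.assoc]
    rw [h0 _ (Or.inl rfl), h0 _ (Or.inr rfl)]
    simp [theta, pb_zero]

/-- **The theorem of the cube**: the cube class of any three points vanishes. -/
theorem theta_eq_zero {T : Scheme.{u}} {t : T ⟶ Spec (CommRingCat.of K)} (x y z : V.Pt t) :
    theta L x y z = 0 := by
  rw [V.theta_eq_map_univCube L x y z, V.univCube_eq_zero L, map_zero]

/-- A symmetric class pulls back under multiplication by `n` to `n ^ 2` times itself. -/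
theorem map_mulBy_eq_smul (hL : Pic.map (V.mulBy (-1)) L = L) (n : ℕ) :
    Pic.map (V.mulBy n) L = (n ^ 2) • L := by
  have hpb : ∀ m : ℤ, Pic.map (V.mulBy m) L = pb L (m • V.idPt) := fun _ => rfl
  have hid : pb L V.idPt = L := Pic.map_id L
  have hneg : pb L (-V.idPt) = L := by rw [← neg_one_zsmul V.idPt, ← hpb, hL]
  rw [hpb, natCast_zsmul]
  induction n using Nat.twoStepInduction with
  | zero => simp [pb_zero]
  | one => simp [hid]
  | more n h0 h1 =>
    have h := V.theta_eq_zero L ((n + 1) • V.idPt) V.idPt (-V.idPt)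
    have e1 : (n + 1) • V.idPt + V.idPt = (n + 2) • V.idPt := by simp [succ_nsmul]
    have e2 : (n + 1) • V.idPt + -V.idPt = n • V.idPt := by simp [succ_nsmul]
    have e3 : (n + 1) • V.idPt + V.idPt + -V.idPt = (n + 1) • V.idPt := add_neg_cancel_right _ _
    have e4 : V.idPt + -V.idPt = 0 := add_neg_cancel _
    simp only [theta] at h
    rw [e3, e1, e2, e4, pb_zero, hid, hneg, h0, h1] at h
    have hsq : (n + 2) ^ 2 + n ^ 2 = 2 * (n + 1) ^ 2 + 2 := by ring
    have hsq' : ((n + 2) ^ 2) • L + (n ^ 2) • L = (2 * (n + 1) ^ 2) • L + L + L := by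
      rw [← add_nsmul, hsq, add_nsmul, two_nsmul, add_assoc]
    rw [mul_nsmul', two_nsmul] at hsq'
    linear_combination (norm := abel) -h - hsq'

end Fermat.Agent.AbVar.AV

end
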