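import Fermat.Agent.AbVar.Nsmul.Degree

/-!
# Multiplication by an invertible integer
-/

set_option autoImplicit false

universe u

noncomputable section

open CategoryTheory

namespace Fermat.Agent.AbVar

variable {K : Type u} [Field K] [IsAlgClosed K]

namespace AV

variable (V : AV K)

/-- The number of rational points killed by `n`. -/
def torCount (n : ℕ) : ℕ := Nat.card {x : V.K_Points // n • x = 0}

/-- For `n` invertible in the field, the number of points killed by `m n` is the product of those
killed by `m` and by `n`. -/
theorem torCount_mul {m n : ℕ} (hn : (n : K) ≠ 0) :
    V.torCount (m * n) = V.torCount m * V.torCount n :=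
  V.natCard_torsion_mul hn

/-- Multiplication by `n`, invertible in the field, gives a finite separable extension of function
fields of degree the number of points killed by `n`. -/
theorem mulBy_ffMap {n : ℕ} (hn : (n : K) ≠ 0) :
    haveI := V.isDominant_mulBy hn
    FiniteDimensional (ffMap (V.mulBy n)).fieldRange V.A.functionField ∧
      Algebra.IsSeparable (ffMap (V.mulBy n)).fieldRange V.A.functionField ∧
        Module.finrank (ffMap (V.mulBy n)).fieldRange V.A.functionField = V.torCount n :=
  haveI := V.isDominant_mulBy hn
  V.ffMap_mulBy_degree hn

end AV

end Fermat.Agent.AbVar

end
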