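import Fermat.Agent.AbVar.Curve.Rigid
import Fermat.Agent.AbVar.Curve.Connect
import Fermat.Agent.AbVar.Nsmul

/-!
# The cube class along curves
-/

set_option autoImplicit false

universe u

noncomputable section

open CategoryTheory AlgebraicGeometry NeronModelInfra

namespace Fermat.Agent.AbVar.AV

variable {K : Type u} [Field K] [IsAlgClosed K] (V : AV K)
variable (k' : Type u) [Field k'] [IsAlgClosed k'] [Algebra K k']

/-- Two points over `k'` are joined by a smooth proper integral curve over `k'`. -/
def OnCurve (P Q : V.Pt (specK K k')) : Prop :=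
  ∃ (C : Scheme.{u}) (c : C ⟶ Spec (CommRingCat.of k')) (_ : IsProper c)
    (_ : SmoothOfRelativeDimension 1 c) (_ : IsIntegral C) (φ : V.Pt (c ≫ specK K k'))
    (a b : SchemeHomOver (𝟙 (Spec (CommRingCat.of k'))) c),
    φ.comap (specK K k') a.1 (by rw [← Category.assoc, a.2, Category.id_comp]) = P ∧
      φ.comap (specK K k') b.1 (by rw [← Category.assoc, b.2, Category.id_comp]) = Q

variable {V k'}

/-- Points on a common curve give the same slice of a class. -/
theorem slice_eq_of_onCurve (L : Pic V.A) {P Q : V.Pt (specK K k')} (h : V.OnCurve k' P Q) :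
    V.slice L P = V.slice L Q := by
  obtain ⟨C, c, _, _, _, φ, a, b, rfl, rfl⟩ := h
  exact slice_eq_of_curve c φ V.geometricallyIntegral L a b _ _ rfl rfl

/-- Every point over an algebraically closed extension is joined by a curve to a rational one. -/
theorem exists_rational_onCurve (P : V.Pt (specK K k')) :
    ∃ y : V.K_Points,
      V.OnCurve k' P (y.comap (specK K k') (specK K k') (Category.comp_id _)) :=
  V.exists_curve_rational k' P

end Fermat.Agent.AbVar.AV

end
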