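import Fermat.Agent.AbVar.Factorial.Divisor
import Fermat.Agent.AbVar.Factorial.Stalk

/-!
# Local rings of abelian varieties, and a divisor with affine complement

For an abelian variety over an algebraically closed field: the local rings at closed points are
factorial, all local rings are integrally closed, and some Cartier divisor has a non-empty affine
open as complement (`AV.uniqueFactorizationMonoid_stalk`, `AV.isIntegrallyClosed_stalk`,
`AV.exists_divData`). -/

set_option autoImplicit false

universe u

noncomputable section

open CategoryTheory AlgebraicGeometry

namespace Fermat.Agent.AbVar.AV

variable {K : Type u} [Field K] [IsAlgClosed K] (V : AV K)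

/-- The local rings at closed points are factorial. -/
theorem uniqueFactorizationMonoid_stalk (x : V.A) (hx : IsClosed ({x} : Set V.A)) :
    UniqueFactorizationMonoid (V.A.presheaf.stalk x) :=
  Local.uniqueFactorizationMonoid_stalk_of_isClosed V.f x hx

/-- All local rings are integrally closed. -/
theorem isIntegrallyClosed_stalk (x : V.A) : IsIntegrallyClosed (V.A.presheaf.stalk x) :=
  Local.isIntegrallyClosed_stalk_of_smooth V.f x

/-- Some Cartier divisor has a non-empty affine open as complement. -/
theorem exists_divData : ∃ (D : DivData V.A) (U : V.A.Opens),
    IsAffineOpen U ∧ (U : Set V.A).Nonempty ∧ D.IsComplement U :=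
  exists_divData_of_factorial V.f fun x hx => V.uniqueFactorizationMonoid_stalk x hx

end Fermat.Agent.AbVar.AV

end
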