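import Fermat.Agent.AbVar.Rational

/-!
# Symmetric divisors with affine complement

If a divisor `D` has the non-empty affine open `U` as complement, then `D + [-1]^*D` has the
non-empty affine open `U ⊓ [-1]⁻¹U` as complement and its class is fixed by pull-back along `[-1]`
(`AV.exists_symmetric`). -/

set_option autoImplicit false

universe u

noncomputable section

open CategoryTheory CategoryTheory.Limits AlgebraicGeometry

namespace Fermat.Agent.AbVar.AV

variable {K : Type u} [Field K]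

/-- Pull-back of points as a homomorphism. -/
def comapHom (V : AV K) {T T' : Scheme.{u}} {t : T ⟶ Spec (CommRingCat.of K)}
    (t' : T' ⟶ Spec (CommRingCat.of K)) (ψ : T' ⟶ T) (hψ : ψ ≫ t = t') : V.Pt t →+ V.Pt t' :=
  AddMonoidHom.mk' (Pt.comap t' ψ hψ) (Pt.comap_add t' ψ hψ)

theorem mulBy_one (V : AV K) : V.mulBy 1 = 𝟙 V.A := by
  rw [mulBy, one_smul]
  rfl

theorem mulBy_comp (V : AV K) (a b : ℤ) : V.mulBy a ≫ V.mulBy b = V.mulBy (b * a) := by
  have h : V.comapHom V.f (V.mulBy a) (V.mulBy_over a) V.idPt = a • V.idPt :=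
    Pt.ext (Category.comp_id _)
  have h2 := map_zsmul (V.comapHom V.f (V.mulBy a) (V.mulBy_over a)) b V.idPt
  rw [h, ← mul_smul] at h2
  exact congrArg Pt.hom h2

theorem mulBy_neg_one_comp_self (V : AV K) : V.mulBy (-1) ≫ V.mulBy (-1) = 𝟙 V.A := by
  rw [mulBy_comp, show (-1 : ℤ) * -1 = 1 from rfl, mulBy_one]

theorem isIso_mulBy_neg_one (V : AV K) : IsIso (V.mulBy (-1)) :=
  ⟨V.mulBy (-1), V.mulBy_neg_one_comp_self, V.mulBy_neg_one_comp_self⟩

/-- From a divisor with affine complement, a symmetric one. -/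
theorem exists_symmetric (V : AV K) (D : DivData V.A) (U : V.A.Opens) (hU : IsAffineOpen U)
    (hne : (U : Set V.A).Nonempty) (hD : D.IsComplement U) :
    ∃ (E : DivData V.A) (W : V.A.Opens), IsAffineOpen W ∧ (W : Set V.A).Nonempty ∧
      E.IsComplement W ∧
      Pic.map (V.mulBy (-1)) E.toPic = E.toPic := by
  have : IsIso (V.mulBy (-1)) := V.isIso_mulBy_neg_one
  have : IsDominant (V.mulBy (-1)) := ⟨(V.mulBy (-1)).homeomorph.surjective.denseRange⟩
  have hne' : ((V.mulBy (-1) ⁻¹ᵁ U : V.A.Opens) : Set V.A).Nonempty := by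
    obtain ⟨x, hx⟩ := hne
    obtain ⟨y, hy⟩ := (V.mulBy (-1)).homeomorph.surjective x
    refine ⟨y, ?_⟩
    show (V.mulBy (-1)).base y ∈ U
    exact hy ▸ hx
  refine ⟨D.add (D.comap (V.mulBy (-1))), U ⊓ V.mulBy (-1) ⁻¹ᵁ U, ?_, ?_, hD.add (hD.comap _), ?_⟩
  · have : V.A.IsSeparated := ⟨by
      rw [terminal.hom_ext (terminal.from V.A) (V.f ≫ terminal.from _)]
      infer_instance⟩
    exact hU.inf (hU.preimage_of_isIso _)
  · exact ⟨genericPoint V.A,
      ((genericPoint_spec V.A).mem_open_set_iff U.isOpen).mpr (by simpa using hne),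
      ((genericPoint_spec V.A).mem_open_set_iff (V.mulBy (-1) ⁻¹ᵁ U).isOpen).mpr
        (by simpa using hne')⟩
  · rw [DivData.toPic_add, DivData.toPic_comap, map_add, ← Pic.map_comp, mulBy_neg_one_comp_self,
      Pic.map_id, add_comm]

end Fermat.Agent.AbVar.AV

end
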