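import Fermat.Agent.AbVar.Count
import Fermat.Agent.AbVar.Cube
import Fermat.Agent.AbVar.Factorial
import Fermat.Agent.AbVar.Symm
import Fermat.Prelude.Def_GoodReductionJacobian_RelativeGroupLawKernel

/-!
# The number of torsion points of an abelian variety

For a smooth proper commutative group scheme `V` of relative dimension `g` with integral total space
over an algebraically closed field `K`, and `n` invertible in `K`, exactly `n ^ (2 * g)` rational
points are killed by `n` (`AV.torCount_eq`). `natCard_isTorsionPoint_eq` is the same statement for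
an abelian scheme given by `AbelianSchemePropertyBundle` and a commutative `RelativeGroupLaw`; it is
the statement of `S26`. The proof:

1. `V` is normal and has a divisor with non-empty affine complement (`AbVar/Factorial`); adding its
   pull-back along `[-1]` makes it a symmetric such divisor `D` (`AbVar/Symm`).
2. By the theorem of the cube `[m]^*D ~ m ^ 2 D` for every `m` (`AbVar/Cube`).
3. For `m` invertible in `K`, `[m]` is finite, dominant and separable, its degree is the number of
   points killed by `m`, and this number is multiplicative in `m` (`AbVar/Nsmul`).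
4. A finite separable endomorphism pulling `D` back to `N D` has degree between constant multiples
   of `N ^ g` (`AbVar/Count`).
5. For `m = n ^ j` the `j`-th power of the number of `n`-torsion points is thus between constant
   multiples of `n ^ (2 * g * j)`, for every `j`; hence the equality (`eq_of_pow_bounds`).

## References

* D. Mumford, *Abelian Varieties*, §6.
* J. S. Milne, *Abelian Varieties*, in *Arithmetic Geometry* (Cornell, Silverman, eds.).

The sources read the degree of `[n]` off intersection numbers or Euler characteristics. Here it is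
squeezed by the growth of spaces of sections, so neither is needed.
-/

set_option autoImplicit false

universe u

noncomputable section

open CategoryTheory AlgebraicGeometry NeronModelInfra GoodReductionJacobian

namespace Fermat.Agent.AbVar

/-! ## Powers in a bounded ratio -/

/-- Two natural numbers, the second positive, whose powers stay within a bounded ratio are equal. -/
theorem eq_of_pow_bounds {c C : ℝ} (hc : 0 < c) {N M : ℕ} (hM : 0 < M)
    (h : ∀ j : ℕ, c * (M : ℝ) ^ j ≤ (N : ℝ) ^ j ∧ (N : ℝ) ^ j ≤ C * (M : ℝ) ^ j) : N = M := by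
  have hM' : (0 : ℝ) < M := Nat.cast_pos.mpr hM
  rcases lt_trichotomy N M with hlt | heq | hgt
  · obtain ⟨j, hj⟩ := exists_pow_lt_of_lt_one hc
      (show (N : ℝ) / M < 1 from (div_lt_one hM').mpr (by exact_mod_cast hlt))
    rw [div_pow, div_lt_iff₀ (pow_pos hM' j)] at hj
    linarith [(h j).1]
  · exact heq
  · obtain ⟨j, hj⟩ := pow_unbounded_of_one_lt C
      (show 1 < (N : ℝ) / M from (one_lt_div hM').mpr (by exact_mod_cast hgt))
    rw [div_pow, lt_div_iff₀ (pow_pos hM' j)] at hj
    linarith [(h j).2]

/-! ## Counting torsion points -/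

namespace AV

variable {K : Type u} [Field K] [IsAlgClosed K]

omit [IsAlgClosed K] in
/-- Only zero is killed by `1`. -/
theorem torCount_one (V : AV K) : V.torCount 1 = 1 := by
  have h1 : ∀ x : V.K_Points, 1 • x = 0 ↔ x = 0 := fun x => by rw [one_nsmul]
  let : Unique {x : V.K_Points // 1 • x = 0} :=
    { default := ⟨0, (h1 0).mpr rfl⟩
      uniq := fun x => Subtype.ext ((h1 _).mp x.2) }
  exact Nat.card_unique

/-- The count of torsion points is multiplicative in powers. -/
theorem torCount_pow (V : AV K) {n : ℕ} (hn : (n : K) ≠ 0) :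
    ∀ j : ℕ, V.torCount (n ^ j) = V.torCount n ^ j
  | 0 => by rw [pow_zero, pow_zero, torCount_one]
  | j + 1 => by
    rw [pow_succ, pow_succ, V.torCount_mul hn,
      V.torCount_pow hn j]

/-- The number of rational `n`-torsion points is `n ^ (2 * g)`, for `n` invertible in `K`. -/
theorem torCount_eq (V : AV K) (g : ℕ) [SmoothOfRelativeDimension g V.f] {n : ℕ}
    (hn : (n : K) ≠ 0) :
    V.torCount n = n ^ (2 * g) := by
  -- Steps 1 and 4: a symmetric divisor `D` and the constants bounding degrees against it.
  obtain ⟨D₀, U₀, hU₀, hne₀, hD₀⟩ := V.exists_divData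
  obtain ⟨D, U, hU, hne, hD, hsymm⟩ := V.exists_symmetric D₀ U₀ hU₀ hne₀ hD₀
  obtain ⟨c, C, hc, hb⟩ := degree_bounds V.f g (V.trdeg_functionField g) V.isIntegrallyClosed_stalk
    D U hU hne hD
  have hn0 : n ≠ 0 := fun h => hn (by simp [h])
  refine eq_of_pow_bounds (C := C) hc (pow_pos (Nat.pos_of_ne_zero hn0) _) fun j => ?_
  -- Steps 2 and 3 for `m = n ^ j`.
  have hnj : ((n ^ j : ℕ) : K) ≠ 0 := by rw [Nat.cast_pow]; exact pow_ne_zero j hn
  have := V.isDominant_mulBy hnj
  obtain ⟨hfd, hsep, hrank⟩ := V.mulBy_ffMap hnj
  have h := hb (V.mulBy (n ^ j : ℕ)) (V.mulBy_over _) (V.isFinite_mulBy hnj) hfd hsep ((n ^ j) ^ 2)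
    (pow_pos (pow_pos (Nat.pos_of_ne_zero hn0) _) _)
    (DivData.linEquivPow_of_toPic_eq _ _ _ (by
      rw [DivData.toPic_comap]; exact V.map_mulBy_eq_smul _ hsymm _))
  -- Step 5: the degree is `torCount n ^ j`.
  rw [hrank, V.torCount_pow hn] at h
  push_cast at h ⊢
  rw [← pow_mul, ← pow_mul, mul_comm j] at h
  rwa [← pow_mul]

end AV

/-! ## The statement for abelian schemes -/

/-- An abelian scheme of relative dimension `g` over an algebraically closed field has `n ^ (2 * g)`
rational points killed by `n`, for `n` invertible in the field. -/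
theorem natCard_isTorsionPoint_eq
    (K : Type u) [Field K] [IsAlgClosed K] {A : Scheme.{u}} (f : A ⟶ Spec (CommRingCat.of K))
    (L : RelativeGroupLaw K f) (hc : L.IsCommutative) (hA : AbelianSchemePropertyBundle K f)
    (g : ℕ) [SmoothOfRelativeDimension g f] (n : ℕ) (hn : (n : K) ≠ 0) :
    Nat.card {x : SchemeHomOver (𝟙 (Spec (CommRingCat.of K))) f //
        L.IsTorsionPoint (𝟙 (Spec (CommRingCat.of K))) n x} = n ^ (2 * g) := by
  have := hA.smooth
  have := hA.proper
  have := isIntegral_of_bundle f L hA
  let V : AV K := ⟨A, f, L, hc⟩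
  -- Multiples in the group `V.K_Points` are those of the group law `L`.
  have hns : ∀ (m : ℕ) (x : V.K_Points), m • x = L.nsmul (𝟙 _) m x := fun m x => by
    induction m with
    | zero => exact zero_nsmul x
    | succ m ih => rw [succ_nsmul, ih]; rfl
  rw [← AV.torCount_eq V g hn]
  exact Nat.card_congr (Equiv.subtypeEquivRight fun x =>
    ⟨fun h => (hns n x).trans h, fun h => (hns n x).symm.trans h⟩)

end Fermat.Agent.AbVar

end
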