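import Fermat.Agent.AbVar.Basic
import Fermat.Agent.AbVar.Pic.Basic

/-!
# Rational functions and Cartier data on integral schemes

The data are `DivData`, with classes `DivData.toPic`; `DivData.linEquivPow_of_toPic_eq` turns equal
classes into linear equivalence.
-/

set_option autoImplicit false

universe u

noncomputable section

open CategoryTheory CategoryTheory.Limits AlgebraicGeometry TopologicalSpace

namespace Fermat.Agent.AbVar

variable {X : Scheme.{u}} [IsIntegral X]

/-! ### Regular and invertible rational functions -/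

/-- The rational functions regular at a point. -/
def localRing (x : X) : Subring X.functionField :=
  (algebraMap (X.presheaf.stalk x) X.functionField).range

/-- A rational function is regular on an open. -/
def RegularOn (W : X.Opens) (φ : X.functionField) : Prop :=
  ∀ x ∈ W, φ ∈ Set.range (algebraMap (X.presheaf.stalk x) X.functionField)

/-- A rational function is an invertible regular function on an open. -/
def UnitOn (W : X.Opens) (φ : X.functionField) : Prop :=
  φ ≠ 0 ∧ RegularOn W φ ∧ RegularOn W φ⁻¹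

/-- The rational function of a section, read at a point of its domain. -/
def ffVal {W : X.Opens} (x : X) (hx : x ∈ W) : Γ(X, W) →+* X.functionField :=
  (algebraMap (X.presheaf.stalk x) X.functionField).comp (X.presheaf.germ W x hx).hom

/-- A section and its restriction define the same rational function. -/
theorem ffVal_res {W W' : X.Opens} (h : W' ≤ W) (x : X) (hx : x ∈ W') (s : Γ(X, W)) :
    ffVal x hx (res X h s) = ffVal x (h hx) s :=
  congrArg (algebraMap (X.presheaf.stalk x) X.functionField)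
    (X.presheaf.germ_res_apply (homOfLE h) x hx s)

/-- The rational function of a section is its germ at the generic point. -/
theorem ffVal_eq_germToFunctionField {W : X.Opens} [Nonempty W] (x : X) (hx : x ∈ W) (s : Γ(X, W)) :
    ffVal x hx s = X.germToFunctionField W s :=
  Scheme.algebraMap_germ_eq_germToFunctionField X hx s

/-- The rational function of a section does not depend on the point where it is read. -/
theorem ffVal_indep {W : X.Opens} (x y : X) (hx : x ∈ W) (hy : y ∈ W) (s : Γ(X, W)) :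
    ffVal x hx s = ffVal y hy s := by
  have : Nonempty W := ⟨⟨x, hx⟩⟩
  rw [ffVal_eq_germToFunctionField, ffVal_eq_germToFunctionField]

theorem ext_ffVal {W : X.Opens} {s t : Γ(X, W)}
    (h : ∀ x (hx : x ∈ W), ffVal x hx s = ffVal x hx t) :
    s = t :=
  TopCat.Presheaf.section_ext X.sheaf W s t fun x hx =>
    IsFractionRing.injective (X.presheaf.stalk x) X.functionField (h x hx)

/-- A rational function given by a section on an open is regular there. -/
theorem regularOn_of_ffVal_eq {W : X.Opens} {φ : X.functionField} (s : Γ(X, W))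
    (h : ∀ x (hx : x ∈ W), ffVal x hx s = φ) : RegularOn W φ :=
  fun x hx => ⟨X.presheaf.germ W x hx s, h x hx⟩

/-- A rational function regular on an open is given by a section on it. -/
theorem RegularOn.exists_section {W : X.Opens} {φ : X.functionField} (h : RegularOn W φ) :
    ∃ s : Γ(X, W), ∀ x (hx : x ∈ W), ffVal x hx s = φ := by
  choose a ha using h
  choose V hV s hs using fun x : W => X.presheaf.exists_germ_eq (a x.1 x.2)
  have hval : ∀ (x : W) (y : X) (hy : y ∈ V x), ffVal y hy (s x) = φ := fun x y hy => by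
    rw [ffVal_indep y x.1 hy (hV x)]
    exact (congrArg (algebraMap (X.presheaf.stalk x.1) X.functionField) (hs x)).trans (ha x.1 x.2)
  let U : W → X.Opens := fun x => V x ⊓ W
  have hcov : W ≤ iSup U := fun y hy => Opens.mem_iSup.mpr
    (⟨⟨y, hy⟩, (⟨hV ⟨y, hy⟩, hy⟩ : y ∈ V ⟨y, hy⟩ ⊓ W)⟩ : ∃ x, y ∈ U x)
  obtain ⟨t, ht, -⟩ := X.sheaf.existsUnique_gluing' U W (fun x => homOfLE inf_le_right) hcov
    (fun x => res X (inf_le_left : U x ≤ V x) (s x)) (fun x y => ext_ffVal fun z hz =>
      (((ffVal_res _ z hz _).trans ((ffVal_res _ z _ _).trans (hval x z _))).trans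
        ((ffVal_res _ z hz _).trans ((ffVal_res _ z _ _).trans (hval y z _))).symm))
  refine ⟨t, fun y hy => ?_⟩
  have hyU : y ∈ U ⟨y, hy⟩ := And.intro (hV ⟨y, hy⟩) hy
  have h1 := congrArg (ffVal y hyU) (ht ⟨y, hy⟩)
  exact ((ffVal_res (inf_le_right : U ⟨y, hy⟩ ≤ W) y hyU t).symm.trans h1).trans
    ((ffVal_res _ y _ _).trans (hval ⟨y, hy⟩ y _))

/-- Regularity on an open passes to smaller opens. -/
theorem RegularOn.mono {W W' : X.Opens} (hle : W' ≤ W) {φ : X.functionField} (h : RegularOn W φ) :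
    RegularOn W' φ :=
  fun x hx => h x (hle hx)

/-- Products of regular rational functions are regular. -/
theorem RegularOn.mul {W : X.Opens} {φ ψ : X.functionField} (h : RegularOn W φ)
    (h' : RegularOn W ψ) :
    RegularOn W (φ * ψ) := fun x hx => by
  obtain ⟨a, rfl⟩ := h x hx
  obtain ⟨b, rfl⟩ := h' x hx
  exact ⟨a * b, map_mul _ a b⟩

/-- The constant one is regular on every open. -/
theorem regularOn_one (W : X.Opens) : RegularOn W (1 : X.functionField) := fun _ _ => ⟨1, map_one _⟩

/-- Invertible regularity on an open passes to smaller opens. -/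
theorem UnitOn.mono {W W' : X.Opens} (hle : W' ≤ W) {φ : X.functionField} (h : UnitOn W φ) :
    UnitOn W' φ :=
  ⟨h.1, h.2.1.mono hle, h.2.2.mono hle⟩

theorem unitOn_one (W : X.Opens) : UnitOn W (1 : X.functionField) :=
  ⟨one_ne_zero, regularOn_one W, by rw [inv_one]; exact regularOn_one W⟩

/-- Products of invertible regular rational functions are invertible regular. -/
theorem UnitOn.mul {W : X.Opens} {φ ψ : X.functionField} (h : UnitOn W φ) (h' : UnitOn W ψ) :
    UnitOn W (φ * ψ) :=
  ⟨mul_ne_zero h.1 h'.1, h.2.1.mul h'.2.1, by rw [mul_inv]; exact h.2.2.mul h'.2.2⟩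

theorem UnitOn.pow {W : X.Opens} {φ : X.functionField} (h : UnitOn W φ) : ∀ n : ℕ, UnitOn W (φ ^ n)
  | 0 => by rw [pow_zero]; exact unitOn_one W
  | n + 1 => by rw [pow_succ]; exact (h.pow n).mul h

/-- The unit of an invertible regular function. -/
def UnitOn.toUnits {W : X.Opens} {φ : X.functionField} (h : UnitOn W φ) : Γ(X, W)ˣ where
  val := h.2.1.exists_section.choose
  inv := h.2.2.exists_section.choose
  val_inv := ext_ffVal fun x hx => by
    rw [map_mul, map_one, h.2.1.exists_section.choose_spec x hx,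
      h.2.2.exists_section.choose_spec x hx, mul_inv_cancel₀ h.1]
  inv_val := ext_ffVal fun x hx => by
    rw [map_mul, map_one, h.2.1.exists_section.choose_spec x hx,
      h.2.2.exists_section.choose_spec x hx, inv_mul_cancel₀ h.1]

@[simp]
theorem UnitOn.ffVal_toUnits {W : X.Opens} {φ : X.functionField} (h : UnitOn W φ) (x : X)
    (hx : x ∈ W) :
    ffVal x hx (h.toUnits : Γ(X, W)) = φ :=
  h.2.1.exists_section.choose_spec x hx

theorem UnitOn.ffVal_res_toUnits {W W' : X.Opens} {φ : X.functionField} (h : UnitOn W φ)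
    (hle : W' ≤ W) (x : X) (hx : x ∈ W') : ffVal x hx (res X hle (h.toUnits : Γ(X, W))) = φ :=
  (ffVal_res hle x hx _).trans (h.ffVal_toUnits x _)

/-! ### Cartier data and their classes -/

/-- A Cartier divisor by local equations. -/
structure DivData (X : Scheme.{u}) [IsIntegral X] where
  /-- the indices -/
  ι : Type u
  /-- the cover -/
  U : ι → X.Opens
  covers : (⨆ a, U a) = ⊤
  /-- the local equations -/
  h : ι → X.functionField
  ne_zero : ∀ a, h a ≠ 0
  unit : ∀ a b, UnitOn (U a ⊓ U b) (h a / h b)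

namespace DivData

/-- The function `φ` is a section of the `m`-th power. -/
def IsSectionPow (D : DivData X) (m : ℕ) (φ : X.functionField) : Prop :=
  ∀ a, RegularOn (D.U a) (φ * D.h a ^ m)

/-- The divisor is effective and the open `W` is exactly the complement of its support. -/
def IsComplement (D : DivData X) (W : X.Opens) : Prop :=
  (∀ a, RegularOn (D.U a) (D.h a)) ∧ ∀ a, ∀ x ∈ D.U a, x ∈ W ↔
    ∃ s : (X.presheaf.stalk x)ˣ, algebraMap (X.presheaf.stalk x) X.functionField s = D.h a

/-- The divisors `D` and `N • E` differ by a principal divisor, `D` being given on another cover. -/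
def LinEquivPow (D E : DivData X) (N : ℕ) : Prop :=
  ∃ ψ : X.functionField, ψ ≠ 0 ∧ ∀ a b, UnitOn (D.U a ⊓ E.U b) (D.h a / (E.h b ^ N * ψ))

/-- The cocycle of a divisor. -/
def coc (D : DivData X) : Coc X where
  ι := D.ι
  U := D.U
  covers := D.covers
  g a b := (D.unit a b).toUnits
  cocycle a b c W hab hbc hac := ext_ffVal fun x hx => by
    rw [map_mul, ffVal_res, ffVal_res, ffVal_res, UnitOn.ffVal_toUnits, UnitOn.ffVal_toUnits,
      UnitOn.ffVal_toUnits, div_mul_div_cancel₀ (D.ne_zero b)]

/-- The class of the line bundle of a divisor. -/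
def toPic (D : DivData X) : Pic X := Pic.mk D.coc

theorem toPic_eq_of_unitOn (D E : DivData X) (h : ∀ a b, UnitOn (D.U a ⊓ E.U b) (D.h a / E.h b)) :
    D.toPic = E.toPic := by
  refine Quotient.sound ⟨fun a b => (h a b).toUnits,
    fun a a' b b' W ha hb hw hw' => ext_ffVal fun x hx => ?_⟩
  refine (map_mul (ffVal x hx) _ _).trans (Eq.trans ?_ (map_mul (ffVal x hx) _ _).symm)
  exact (congrArg₂ (· * ·) ((D.unit a a').ffVal_res_toUnits ha x hx)
    ((h a' b').ffVal_res_toUnits hw' x hx)).trans
    (((div_mul_div_cancel₀ (D.ne_zero a')).trans (div_mul_div_cancel₀ (E.ne_zero b)).symm).trans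
      (congrArg₂ (· * ·) ((h a b).ffVal_res_toUnits hw x hx)
        ((E.unit b b').ffVal_res_toUnits hb x hx)).symm)

/-- The sum of two divisors. -/
def add (D E : DivData X) : DivData X where
  ι := D.ι × E.ι
  U x := D.U x.1 ⊓ E.U x.2
  covers := top_unique fun p _ => by
    obtain ⟨a, ha⟩ := Opens.mem_iSup.mp (D.covers.ge (Opens.mem_top p))
    obtain ⟨b, hb⟩ := Opens.mem_iSup.mp (E.covers.ge (Opens.mem_top p))
    exact Opens.mem_iSup.mpr ⟨(a, b), ha, hb⟩
  h x := D.h x.1 * E.h x.2
  ne_zero x := mul_ne_zero (D.ne_zero x.1) (E.ne_zero x.2)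
  unit x y := by
    rw [← div_mul_div_comm]
    exact ((D.unit x.1 y.1).mono (inf_le_inf inf_le_left inf_le_left)).mul
      ((E.unit x.2 y.2).mono (inf_le_inf inf_le_right inf_le_right))

theorem coc_add (D E : DivData X) : (D.add E).coc = D.coc.mul E.coc := by
  simp only [coc, Coc.mul, add]
  congr 1
  funext x y
  refine Units.ext (ext_ffVal fun z hz => ?_)
  exact (UnitOn.ffVal_toUnits _ z hz).trans ((div_mul_div_comm _ _ _ _).symm.trans
    ((congrArg₂ (· * ·)
      ((ffVal_res _ z hz _).trans (UnitOn.ffVal_toUnits _ z _)).symm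
      ((ffVal_res _ z hz _).trans (UnitOn.ffVal_toUnits _ z _)).symm).trans (map_mul
        (ffVal z hz) _ _).symm))

theorem toPic_add (D E : DivData X) : (D.add E).toPic = D.toPic + E.toPic :=
  congrArg Pic.mk (coc_add D E)

/-- The trivial divisor. -/
def one (X : Scheme.{u}) [IsIntegral X] : DivData X where
  ι := PUnit
  U _ := ⊤
  covers := iSup_const
  h _ := 1
  ne_zero _ := one_ne_zero
  unit _ _ := by rw [div_one]; exact unitOn_one _

theorem toPic_one : (one X).toPic = 0 := by
  refine congrArg Pic.mk ?_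
  simp only [coc, Coc.trivial, one]
  congr 1
  funext a b
  exact Units.ext (ext_ffVal fun z hz => by
    rw [UnitOn.ffVal_toUnits, Units.val_one, map_one, div_one])

/-- The multiples of a divisor, on the same cover. -/
def pow (D : DivData X) (N : ℕ) : DivData X where
  ι := D.ι
  U := D.U
  covers := D.covers
  h a := D.h a ^ N
  ne_zero a := pow_ne_zero N (D.ne_zero a)
  unit a b := by rw [← div_pow]; exact (D.unit a b).pow N

theorem toPic_pow (D : DivData X) (N : ℕ) : (D.pow N).toPic = N • D.toPic := by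
  induction N with
  | zero =>
    rw [zero_nsmul, ← toPic_one]
    exact toPic_eq_of_unitOn _ _ fun a b => by
      show UnitOn _ (D.h a ^ 0 / 1)
      rw [pow_zero, div_one]; exact unitOn_one _
  | succ N ih =>
    rw [succ_nsmul, ← ih, ← toPic_add]
    exact toPic_eq_of_unitOn _ _ fun a b => by
      show UnitOn _ (D.h a ^ (N + 1) / (D.h b.1 ^ N * D.h b.2))
      rw [pow_succ, ← div_mul_div_comm, ← div_pow]
      exact (((D.unit a b.1).pow N).mono (inf_le_inf le_rfl inf_le_left)).mul
        ((D.unit a b.2).mono (inf_le_inf le_rfl inf_le_right))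

theorem linEquivPow_of_toPic_eq (D E : DivData X) (N : ℕ) (h : D.toPic = N • E.toPic) :
    D.LinEquivPow E N := by
  rw [← toPic_pow] at h
  obtain ⟨w, hw⟩ := Quotient.exact h
  obtain ⟨a₀, ha₀⟩ := Opens.mem_iSup.mp (D.covers.ge (Opens.mem_top (genericPoint X)))
  obtain ⟨b₀, hb₀⟩ := Opens.mem_iSup.mp (E.covers.ge (Opens.mem_top (genericPoint X)))
  let u : ∀ a b, Γ(X, D.U a ⊓ E.U b)ˣ := w
  have hη₀ : genericPoint X ∈ D.U a₀ ⊓ E.U b₀ := ⟨ha₀, hb₀⟩
  let c : X.functionField := ffVal (genericPoint X) hη₀ (u a₀ b₀ : Γ(X, D.U a₀ ⊓ E.U b₀))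
  have hc : c ≠ 0 := ((u a₀ b₀).isUnit.map (ffVal (genericPoint X) hη₀)).ne_zero
  refine ⟨D.h a₀ / (E.h b₀ ^ N * c),
    div_ne_zero (D.ne_zero a₀) (mul_ne_zero (pow_ne_zero N (E.ne_zero b₀)) hc), fun a b => ?_⟩
  have hne := pow_ne_zero N (E.ne_zero b)
  have hne0 := pow_ne_zero N (E.ne_zero b₀)
  have h1 : ∀ x (hx : x ∈ D.U a ⊓ E.U b),
      ffVal x hx (u a b : Γ(X, D.U a ⊓ E.U b)) =
          D.h a / (E.h b ^ N * (D.h a₀ / (E.h b₀ ^ N * c))) := by
    intro x hx
    have hη : genericPoint X ∈ D.U a ⊓ E.U b :=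
      ((genericPoint_spec X).mem_open_set_iff (D.U a ⊓ E.U b).isOpen).mpr ⟨x, trivial, hx⟩
    let W : X.Opens := (D.U a₀ ⊓ E.U b₀) ⊓ (D.U a ⊓ E.U b)
    have hW : genericPoint X ∈ W := ⟨⟨ha₀, hb₀⟩, hη⟩
    have h2 := congrArg (ffVal (genericPoint X) hW) (hw a₀ a b₀ b W
      (le_inf (inf_le_left.trans inf_le_left) (inf_le_right.trans inf_le_left))
      (le_inf (inf_le_left.trans inf_le_right) (inf_le_right.trans inf_le_right))
      inf_le_left inf_le_right)
    have h3 : D.h a₀ / D.h a * ffVal x hx (u a b : Γ(X, D.U a ⊓ E.U b)) =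
        c * (E.h b₀ ^ N / E.h b ^ N) :=
      (congrArg₂ (· * ·) ((D.unit a₀ a).ffVal_res_toUnits _ _ hW).symm
        ((ffVal_indep x _ hx _ _).trans (ffVal_res _ _ hW _).symm)).trans
        ((((map_mul (ffVal (genericPoint X) hW) _ _).symm.trans h2).trans (map_mul _ _ _)).trans
          (congrArg₂ (· * ·) (ffVal_res _ _ hW _) (((E.pow N).unit b₀ b).ffVal_res_toUnits _ _ hW)))
    have := D.ne_zero a
    have := D.ne_zero a₀
    field_simp at h3 ⊢
    linear_combination h3
  refine ⟨div_ne_zero (D.ne_zero a)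
    (mul_ne_zero hne (div_ne_zero (D.ne_zero a₀) (mul_ne_zero hne0 hc))),
    regularOn_of_ffVal_eq _ h1,
    regularOn_of_ffVal_eq (↑(u a b)⁻¹ : Γ(X, D.U a ⊓ E.U b)) fun x hx => ?_⟩
  refine eq_inv_of_mul_eq_one_left ?_
  rw [← h1 x hx, ← map_mul, Units.inv_mul, map_one]

/-- The complement of a sum of divisors is the intersection of the complements. -/
theorem IsComplement.add {D E : DivData X} {W W' : X.Opens} (hD : D.IsComplement W)
    (hE : E.IsComplement W') :
    (D.add E).IsComplement (W ⊓ W') := by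
  refine ⟨fun x => ((hD.1 x.1).mono inf_le_left).mul ((hE.1 x.2).mono inf_le_right),
    fun x z hz => ?_⟩
  obtain ⟨a, ha⟩ := hD.1 x.1 z hz.1
  obtain ⟨b, hb⟩ := hE.1 x.2 z hz.2
  refine ⟨fun hW => ?_, ?_⟩
  · obtain ⟨s, hs⟩ := (hD.2 x.1 z hz.1).mp hW.1
    obtain ⟨t, ht⟩ := (hE.2 x.2 z hz.2).mp hW.2
    exact ⟨s * t, by rw [Units.val_mul, map_mul, hs, ht]; rfl⟩
  · rintro ⟨s, hs⟩
    have hab : a * b = (s : X.presheaf.stalk z) :=
      IsFractionRing.injective (X.presheaf.stalk z) X.functionField
        (by rw [map_mul, ha, hb, hs]; rfl)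
    have hu : IsUnit (a * b) := hab ▸ s.isUnit
    exact ⟨(hD.2 x.1 z hz.1).mpr ⟨(isUnit_of_mul_isUnit_left hu).unit, ha⟩,
      (hE.2 x.2 z hz.2).mpr ⟨(isUnit_of_mul_isUnit_right hu).unit, hb⟩⟩

end DivData

/-! ### Pull-back along dominant morphisms -/

/-- A dominant morphism sends the generic point to the generic point. -/
theorem genericPoint_of_isDominant {Y : Scheme.{u}} [IsIntegral Y] (φ : Y ⟶ X) [IsDominant φ] :
    φ.base (genericPoint Y) = genericPoint X := by
  refine IsGenericPoint.eq ?_ (genericPoint_spec X)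
  have h := (genericPoint_spec Y).image φ.continuous
  rwa [Set.image_univ, DenseRange.closure_range φ.denseRange] at h

/-- The map of function fields of a dominant morphism. -/
def ffMap {Y : Scheme.{u}} [IsIntegral Y] (φ : Y ⟶ X) [IsDominant φ] :
    X.functionField →+* Y.functionField :=
  (X.presheaf.stalkSpecializes (specializes_of_eq (genericPoint_of_isDominant φ)) ≫
    φ.stalkMap (genericPoint Y)).hom

theorem ffMap_algebraMap {Y : Scheme.{u}} [IsIntegral Y] (φ : Y ⟶ X) [IsDominant φ] (y : Y)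
    (a : X.presheaf.stalk (φ.base y)) :
    ffMap φ (algebraMap (X.presheaf.stalk (φ.base y)) X.functionField a) =
      algebraMap (Y.presheaf.stalk y) Y.functionField (φ.stalkMap y a) := by
  obtain ⟨U, hy, s, rfl⟩ := X.presheaf.exists_germ_eq a
  have hηY : genericPoint Y ∈ φ ⁻¹ᵁ U :=
    ((genericPoint_spec Y).mem_open_set_iff (φ ⁻¹ᵁ U).isOpen).mpr ⟨y, trivial, hy⟩
  have hηX : genericPoint X ∈ U := genericPoint_of_isDominant φ ▸ hηY
  rw [Scheme.Hom.germ_stalkMap_apply]
  show φ.stalkMap (genericPoint Y) (X.presheaf.stalkSpecializes _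
    (X.presheaf.stalkSpecializes _ (X.presheaf.germ U (φ.base y) hy s))) =
      Y.presheaf.stalkSpecializes _ (Y.presheaf.germ (φ ⁻¹ᵁ U) y hy (φ.app U s))
  rw [TopCat.Presheaf.germ_stalkSpecializes_apply, TopCat.Presheaf.germ_stalkSpecializes_apply,
    TopCat.Presheaf.germ_stalkSpecializes_apply, Scheme.Hom.germ_stalkMap_apply]

/-- The rational function of a pulled-back section is the pull-back of its rational function. -/
theorem ffVal_appLE {Y : Scheme.{u}} [IsIntegral Y] (φ : Y ⟶ X) [IsDominant φ] {U : X.Opens}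
    {V : Y.Opens} (e : V ≤ φ ⁻¹ᵁ U) (y : Y) (hy : y ∈ V) (s : Γ(X, U)) :
    ffVal y hy (φ.appLE U V e s) = ffMap φ (ffVal (φ.base y) (e hy) s) := by
  show ffVal y hy (res Y e (φ.app U s)) = _
  rw [ffVal_res]
  exact ((ffMap_algebraMap φ y _).trans (congrArg (algebraMap (Y.presheaf.stalk y) Y.functionField)
    (Scheme.Hom.germ_stalkMap_apply φ U y (e hy) s))).symm

/-- Pull-back of a rational function regular on an open is regular on the inverse image. -/
theorem RegularOn.comap {Y : Scheme.{u}} [IsIntegral Y] (φ : Y ⟶ X) [IsDominant φ] {W : X.Opens}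
    {ψ : X.functionField} (h : RegularOn W ψ) : RegularOn (φ ⁻¹ᵁ W) (ffMap φ ψ) := fun y hy => by
  obtain ⟨a, ha⟩ := h _ hy
  exact ⟨φ.stalkMap y a, (ffMap_algebraMap φ y a).symm.trans (congrArg (ffMap φ) ha)⟩

/-- Pull-back of a rational function invertible on an open is invertible on the inverse image. -/
theorem UnitOn.comap {Y : Scheme.{u}} [IsIntegral Y] (φ : Y ⟶ X) [IsDominant φ] {W : X.Opens}
    {ψ : X.functionField} (h : UnitOn W ψ) : UnitOn (φ ⁻¹ᵁ W) (ffMap φ ψ) :=
  ⟨(map_ne_zero _).mpr h.1, h.2.1.comap φ, by rw [← map_inv₀]; exact h.2.2.comap φ⟩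

/-- The pull-back of a divisor along a dominant morphism. -/
def DivData.comap {Y : Scheme.{u}} [IsIntegral Y] (φ : Y ⟶ X) [IsDominant φ] (D : DivData X) :
    DivData Y where
  ι := D.ι
  U a := φ ⁻¹ᵁ D.U a
  covers := top_unique fun y _ => by
    obtain ⟨a, ha⟩ := Opens.mem_iSup.mp (D.covers.ge (Opens.mem_top (φ.base y)))
    exact Opens.mem_iSup.mpr ⟨a, ha⟩
  h a := ffMap φ (D.h a)
  ne_zero a := by simp [D.ne_zero a]
  unit a b := by rw [← map_div₀]; exact (D.unit a b).comap φ

/-- The class of the pull-back of a divisor along a dominant morphism is the pull-back of its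
class. -/
theorem DivData.toPic_comap {Y : Scheme.{u}} [IsIntegral Y] (φ : Y ⟶ X) [IsDominant φ]
    (D : DivData X) :
    (D.comap φ).toPic = Pic.map φ D.toPic := by
  refine congrArg Pic.mk ?_
  simp only [coc, Coc.comap, DivData.comap]
  congr 1
  funext a b
  refine Units.ext (ext_ffVal fun z hz => ?_)
  rw [UnitOn.ffVal_toUnits]
  exact ((ffVal_appLE φ (U := D.U a ⊓ D.U b) le_rfl z hz _).trans
    ((congrArg (ffMap φ) (UnitOn.ffVal_toUnits _ _ _)).trans (map_div₀ _ _ _))).symm

/-- The complement of a pulled-back divisor is the inverse image of the complement. -/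
theorem DivData.IsComplement.comap {Y : Scheme.{u}} [IsIntegral Y] (φ : Y ⟶ X) [IsDominant φ]
    {D : DivData X} {W : X.Opens} (hD : D.IsComplement W) : (D.comap φ).IsComplement (φ ⁻¹ᵁ W) := by
  refine ⟨fun a => (hD.1 a).comap φ, fun a y hy => (hD.2 a (φ.base y) hy).trans ⟨?_, ?_⟩⟩
  · rintro ⟨s, hs⟩
    exact ⟨Units.map (φ.stalkMap y).hom.toMonoidHom s,
      (ffMap_algebraMap φ y s).symm.trans (congrArg (ffMap φ) hs)⟩
  · rintro ⟨t, ht⟩
    obtain ⟨a', ha'⟩ := hD.1 a _ hy
    have h2 : φ.stalkMap y a' = (t : Y.presheaf.stalk y) :=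
      IsFractionRing.injective (Y.presheaf.stalk y) Y.functionField
        ((ffMap_algebraMap φ y a').symm.trans ((congrArg (ffMap φ) ha').trans ht.symm))
    have hu : IsUnit a' := isUnit_of_map_unit (φ.stalkMap y).hom a' (h2 ▸ t.isUnit)
    exact ⟨hu.unit, ha'⟩

/-- The function field as an algebra over the base field. -/
@[reducible]
def ffAlgebra {K : Type u} [Field K] (f : X ⟶ Spec (CommRingCat.of K)) :
    Algebra K X.functionField :=
  ((X.presheaf.germ ⊤ (genericPoint X) trivial).hom.comp
    ((f.appTop).hom.comp (Scheme.ΓSpecIso (CommRingCat.of K)).inv.hom)).toAlgebra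

end Fermat.Agent.AbVar

end
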