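import Fermat.Agent.AbVar.Pic.Basic
import Fermat.Agent.AbVar.Pic.Modules

/-!
# The Picard group by cocycles, with the class of an invertible sheaf
-/
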