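import Fermat.Agent.AbVar.Basic
import Fermat.Agent.AbVar.Pic

/-!
# The cube class of a line bundle
-/

set_option autoImplicit false

universe u

noncomputable section

open CategoryTheory CategoryTheory.Limits AlgebraicGeometry

namespace Fermat.Agent.AbVar.AV

variable {K : Type u} [Field K] {V : AV K} {T : Scheme.{u}} {t : T ⟶ Spec (CommRingCat.of K)}

/-- The pull-back of a class along a point. -/
def pb (L : Pic V.A) (x : V.Pt t) : Pic T := Pic.map x.hom L

theorem pb_comap (L : Pic V.A) {T' : Scheme.{u}} (t' : T' ⟶ Spec (CommRingCat.of K)) (ψ : T' ⟶ T)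
    (hψ : ψ ≫ t = t') (x : V.Pt t) : pb L (x.comap t' ψ hψ) = Pic.map ψ (pb L x) :=
  Pic.map_comp x.hom ψ L

/-- A class pulls back to zero along the zero point. -/
theorem pb_zero (L : Pic V.A) : pb L (0 : V.Pt t) = 0 := by
  have h : (0 : V.Pt t) = (0 : V.Pt (𝟙 (Spec (CommRingCat.of K)))).comap t t (Category.comp_id t) :=
    (Pt.comap_zero t t (Category.comp_id t)).symm
  rw [h, pb_comap, (Pic.subsingleton_spec_field K).elim (pb L (0 : V.Pt _)) 0, map_zero]

/-- The cube class. -/
def theta (L : Pic V.A) (x y z : V.Pt t) : Pic T :=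
  pb L (x + y + z) - pb L (x + y) - pb L (x + z) - pb L (y + z) + pb L x + pb L y + pb L z

/-- The cube class commutes with restriction of the points. -/
theorem theta_comap (L : Pic V.A) {T' : Scheme.{u}} (t' : T' ⟶ Spec (CommRingCat.of K)) (ψ : T' ⟶ T)
    (hψ : ψ ≫ t = t') (x y z : V.Pt t) :
    theta L (x.comap t' ψ hψ) (y.comap t' ψ hψ) (z.comap t' ψ hψ) = Pic.map ψ (theta L x y z) := by
  simp only [theta, ← Pt.comap_add, pb_comap, map_add, map_sub]

variable (V)

/-- The square over a field extension. -/
abbrev sqStrExt (k' : Type u) [Field k'] [Algebra K k'] :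
    pullback (specK K k') V.sqStr ⟶ Spec (CommRingCat.of K) :=
  pullback.fst _ _ ≫ specK K k'

/-- The cube class with the first variable fixed at a point. -/
def slice (L : Pic V.A) {k' : Type u} [Field k'] [Algebra K k'] (P : V.Pt (specK K k')) :
    Pic (pullback (specK K k') V.sqStr) :=
  theta L (P.comap (V.sqStrExt k') (pullback.fst _ _) rfl)
    (V.pr₁.comap (V.sqStrExt k') (pullback.snd _ _) pullback.condition.symm)
    (V.pr₂.comap (V.sqStrExt k') (pullback.snd _ _) pullback.condition.symm)

end Fermat.Agent.AbVar.AV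

end
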